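/-
S48 / brick G (Chebotarev), the `E`-level glue of (G2) — helper95.

For a number field `E`, a number field `L ⊇ E` containing a primitive `m`-th root of unity and
the norm group `H' = normGroup E m ≤ (ℤ/m)ˣ` (`CFT/Analytic/NormResidue`):

* `dvd_absNorm_sub_one`, `natCast_absNorm_eq_one` : a prime `w ∌ m` of `L` has `N(w) ≡ 1 mod m`;
* `lower_bound_tsum` : `NormIndex.lower_bound` as an infinite sum;
* `cyclo_lower_bound` : the primes of `E` of norm `≡ 1 mod m` have lower density `≥ 1/[L:E]`;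
* `card_normGroup_le_finrank` : `|H'| ≤ [L : E]`;
* `hLB_normGroup` : the hypothesis `hLB` of `NormResidueInd.pair_density_normRes`, from
  `[L : E] ≤ |H'|`;
* `bddOn_tsum_sub_DS` : regrouping a weighted prime sum of `E` into the Dirichlet series of the
  weighted degree-one counts (`Lib/FrobDensity` vocabulary), up to `O(1)`;
* `cyclo_pair_DS` : for `a ∈ H'`,
  `∑_ℓ ([ℓ ≡ a] + [ℓ ≡ a⁻¹]) · #{w : N w = ℓ} · ℓ^(-s) = (2/[L:E]) · log (1/(s-1)) + O(1)`.
-/
import Mathlib
import Fermat.Agent.CFT.Analytic.NormResidueInd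
import Fermat.Agent.Lib.FrobDensity.DegOne
import Fermat.Agent.Lib.FrobDensity.Series

set_option autoImplicit false

open scoped NumberField
open IsDedekindDomain
open Fermat.Agent.S14.Analytic Fermat.Agent.CFT.Analytic.RayClass
  Fermat.Agent.CFT.Analytic.NormIndex Fermat.Agent.CFT.Analytic.NormResidue
  Fermat.Agent.CFT.Analytic.NormResidueInd Fermat.Agent.Lib.FrobDensity

namespace Fermat.Agent.CFT.Analytic.CycloPairDS

/-! ## Primes of a field containing `ζ_m` -/

/-- If a number field contains a primitive `m`-th root of unity, every prime not containing `m`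
has norm `≡ 1 mod m`. -/
theorem dvd_absNorm_sub_one {L : Type*} [Field L] [NumberField L] {m : ℕ} (hm : m ≠ 0)
    {ζ : 𝓞 L} (hζ : IsPrimitiveRoot ζ m) (w : HeightOneSpectrum (𝓞 L))
    (hw : (m : 𝓞 L) ∉ w.asIdeal) : m ∣ Ideal.absNorm w.asIdeal - 1 := by
  classical
  have hmax : w.asIdeal.IsMaximal := w.isMaximal
  let _ : Field (𝓞 L ⧸ w.asIdeal) := Ideal.Quotient.field w.asIdeal
  have hcard : Nat.card (𝓞 L ⧸ w.asIdeal) = Ideal.absNorm w.asIdeal := by
    rw [Ideal.absNorm_apply, Submodule.cardQuot_apply]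
  have h1 : (Ideal.Quotient.mk w.asIdeal ζ) ^ m = 1 := by
    rw [← map_pow, hζ.pow_eq_one, map_one]
  have hprim : IsPrimitiveRoot (Ideal.Quotient.mk w.asIdeal ζ) m := by
    refine IsPrimitiveRoot.mk_of_lt _ (Nat.pos_of_ne_zero hm) h1 fun l hl0 hlm hl => ?_
    apply hw
    obtain ⟨n, rfl⟩ : ∃ n, m = n + 1 := Nat.exists_eq_succ_of_ne_zero hm
    have hprod := hζ.prod_one_sub_pow_eq_order
    have e : ((n + 1 : ℕ) : 𝓞 L) = ∏ k ∈ Finset.range n, (1 - ζ ^ (k + 1)) := by
      rw [hprod]; push_cast; rfl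
    rw [e]
    have hmem : 1 - ζ ^ l ∈ w.asIdeal := by
      rw [← Ideal.Quotient.eq_zero_iff_mem, map_sub, map_one, map_pow, hl, sub_self]
    have hl' : l - 1 ∈ Finset.range n := Finset.mem_range.mpr (by omega)
    rw [← Finset.mul_prod_erase _ _ hl', Nat.sub_add_cancel hl0]
    exact Ideal.mul_mem_right _ _ hmem
  have hne : Ideal.Quotient.mk w.asIdeal ζ ≠ 0 := by
    intro h0
    rw [h0, zero_pow hm] at h1
    exact zero_ne_one h1
  have hpow : (Ideal.Quotient.mk w.asIdeal ζ) ^ (Nat.card (𝓞 L ⧸ w.asIdeal) - 1) = 1 := by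
    have h := pow_card_eq_one' (G := (𝓞 L ⧸ w.asIdeal)ˣ)
      (x := Units.mk0 (Ideal.Quotient.mk w.asIdeal ζ) hne)
    rw [Nat.card_units] at h
    have h2 := congrArg Units.val h
    simpa using h2
  rw [← hcard]
  exact hprim.dvd_of_pow_eq_one _ hpow

/-- The same, as a congruence in `ZMod m`, for a root of unity in the field. -/
theorem natCast_absNorm_eq_one {L : Type*} [Field L] [NumberField L] {m : ℕ} [NeZero m]
    {ζ : L} (hζ : IsPrimitiveRoot ζ m) (w : HeightOneSpectrum (𝓞 L))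
    (hw : (m : 𝓞 L) ∉ w.asIdeal) : ((Ideal.absNorm w.asIdeal : ℕ) : ZMod m) = 1 := by
  have hdvd := dvd_absNorm_sub_one (NeZero.ne m) hζ.toInteger_isPrimitiveRoot w hw
  have h2 : 1 ≤ Ideal.absNorm w.asIdeal := by
    have := PrimeSums.two_le_absNorm L w
    omega
  obtain ⟨k, hk⟩ := hdvd
  have e : Ideal.absNorm w.asIdeal = m * k + 1 := by omega
  rw [e]
  push_cast
  simp

/-- A prime of `L` above a prime of `E` which is prime to `m` does not contain `m`. -/
theorem natCast_notMem_of_comap {E : Type*} [Field E] [NumberField E] {L : Type*} [Field L]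
    [NumberField L] [Algebra E L] {m : ℕ} {v : HeightOneSpectrum (𝓞 E)}
    (hv : v.asIdeal ∈ coprimeSubmonoid E (Ideal.span {(m : 𝓞 E)}))
    {w : HeightOneSpectrum (𝓞 L)}
    (hwv : w.asIdeal.comap (algebraMap (𝓞 E) (𝓞 L)) = v.asIdeal) :
    (m : 𝓞 L) ∉ w.asIdeal := by
  intro hmem
  have h1 : (m : 𝓞 E) ∈ v.asIdeal := by
    rw [← hwv, Ideal.mem_comap, map_natCast]
    exact hmem
  have h2 : v.asIdeal ⊔ Ideal.span {(m : 𝓞 E)} = ⊤ := Ideal.isCoprime_iff_sup_eq.mp hv.2
  have h3 : Ideal.span {(m : 𝓞 E)} ≤ v.asIdeal := (Ideal.span_singleton_le_iff_mem _).mpr h1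
  rw [sup_eq_left.mpr h3] at h2
  exact v.isPrime.ne_top h2

/-- The key splitting fact: a prime `v ∤ m` of `E` below a prime of `L ∋ ζ_m` of prime norm has
norm `≡ 1 mod m`. -/
theorem natCast_absNorm_eq_one_of_under {E : Type*} [Field E] [NumberField E] {L : Type*}
    [Field L] [NumberField L] [Algebra E L] {m : ℕ} [NeZero m] {ζ : L}
    (hζ : IsPrimitiveRoot ζ m) {v : HeightOneSpectrum (𝓞 E)}
    (hv : v.asIdeal ∈ coprimeSubmonoid E (Ideal.span {(m : 𝓞 E)}))
    {w : HeightOneSpectrum (𝓞 L)} (hw : (Ideal.absNorm w.asIdeal).Prime)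
    (hwv : w.asIdeal.comap (algebraMap (𝓞 E) (𝓞 L)) = v.asIdeal) :
    ((Ideal.absNorm v.asIdeal : ℕ) : ZMod m) = 1 := by
  have hNv : Ideal.absNorm v.asIdeal = Ideal.absNorm w.asIdeal := by
    rw [← absNorm_under_eq_of_prime E L w hw]
    exact congrArg _ hwv.symm
  rw [hNv]
  exact natCast_absNorm_eq_one hζ w (natCast_notMem_of_comap hv hwv)

/-! ## Lower bounds -/

/-- The lower bound of `NormIndex.lower_bound`, as an infinite sum over a set of primes. -/
theorem lower_bound_tsum (K : Type*) [Field K] [NumberField K] (L : Type*) [Field L]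
    [NumberField L] [Algebra K L] (𝔪 : Ideal (𝓞 K)) (h𝔪 : 𝔪 ≠ ⊥)
    (P : HeightOneSpectrum (𝓞 K) → Prop) [DecidablePred P]
    (hP : ∀ v : HeightOneSpectrum (𝓞 K), v.asIdeal ∈ coprimeSubmonoid K 𝔪 →
      (∃ w : HeightOneSpectrum (𝓞 L), (Ideal.absNorm w.asIdeal).Prime ∧
        w.asIdeal.comap (algebraMap (𝓞 K) (𝓞 L)) = v.asIdeal) → P v) :
    ∃ C : ℝ, ∀ s : ℝ, 1 < s → s ≤ 2 →
      Real.log (1 / (s - 1)) / Module.finrank K L - C ≤
        ∑' v : HeightOneSpectrum (𝓞 K), (if P v then PrimeSums.term K s v.asIdeal else 0) := by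
  obtain ⟨C, hC⟩ := lower_bound K L 𝔪 h𝔪
  refine ⟨|C|, fun s hs1 hs2 => ?_⟩
  have hnn : ∀ v : HeightOneSpectrum (𝓞 K),
      0 ≤ (if P v then PrimeSums.term K s v.asIdeal else 0) := fun v => by
    split_ifs
    · exact PrimeSums.term_nonneg K s _
    · exact le_rfl
  have hsum : Summable fun v : HeightOneSpectrum (𝓞 K) =>
      (if P v then PrimeSums.term K s v.asIdeal else 0) :=
    Summable.of_nonneg_of_le hnn (fun v => by
      split_ifs
      · exact le_rfl
      · exact PrimeSums.term_nonneg K s _) (PrimeSums.summable_primes K hs1)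
  have htnn : 0 ≤ ∑' v : HeightOneSpectrum (𝓞 K),
      (if P v then PrimeSums.term K s v.asIdeal else 0) := tsum_nonneg hnn
  obtain ⟨T, hT, hTL⟩ := hC s hs1 hs2
  have hle : ∑ v ∈ T, PrimeSums.term K s v.asIdeal ≤
      ∑' v : HeightOneSpectrum (𝓞 K), (if P v then PrimeSums.term K s v.asIdeal else 0) := by
    have h1 : ∑ v ∈ T, PrimeSums.term K s v.asIdeal =
        ∑ v ∈ T, (if P v then PrimeSums.term K s v.asIdeal else 0) :=
      Finset.sum_congr rfl fun v hv => by rw [if_pos (hP v (hT v hv).1 (hT v hv).2)]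
    rw [h1]
    exact hsum.sum_le_tsum T fun v _ => hnn v
  rcases Nat.eq_zero_or_pos (Module.finrank K L) with h0 | hpos
  · rw [h0]
    simp only [Nat.cast_zero, div_zero, zero_sub]
    have := abs_nonneg C
    linarith
  · have hn : (0 : ℝ) < Module.finrank K L := by exact_mod_cast hpos
    have hn1 : (1 : ℝ) ≤ Module.finrank K L := by exact_mod_cast hpos
    rw [sub_le_iff_le_add, div_le_iff₀ hn]
    have h2 : (Module.finrank K L : ℝ) * ∑ v ∈ T, PrimeSums.term K s v.asIdeal ≤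
        (Module.finrank K L : ℝ) * ∑' v : HeightOneSpectrum (𝓞 K),
          (if P v then PrimeSums.term K s v.asIdeal else 0) :=
      mul_le_mul_of_nonneg_left hle hn.le
    have h3 : C ≤ |C| * Module.finrank K L :=
      (le_abs_self C).trans (le_mul_of_one_le_right (abs_nonneg C) hn1)
    nlinarith

/-- **Cyclotomic lower bound.** If `L ⊇ E` contains a primitive `m`-th root of unity, the primes
of `E` of norm `≡ 1 mod m` have lower "density" at least `1 / [L : E]`. -/
theorem cyclo_lower_bound (E : Type*) [Field E] [NumberField E] (L : Type*) [Field L]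
    [NumberField L] [Algebra E L] {m : ℕ} [NeZero m] {ζ : L} (hζ : IsPrimitiveRoot ζ m) :
    ∃ C : ℝ, ∀ s : ℝ, 1 < s → s ≤ 2 →
      Real.log (1 / (s - 1)) / Module.finrank E L - C ≤
        ∑' v : HeightOneSpectrum (𝓞 E),
          (if ((Ideal.absNorm v.asIdeal : ℕ) : ZMod m) = 1 then (1 : ℝ) else 0) *
            PrimeSums.term E s v.asIdeal := by
  obtain ⟨C, hC⟩ := lower_bound_tsum E L (Ideal.span {(m : 𝓞 E)})
    (span_natCast_ne_bot (NeZero.ne m))
    (fun v => ((Ideal.absNorm v.asIdeal : ℕ) : ZMod m) = 1)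
    (fun v hv hex => by
      obtain ⟨w, hw, hwv⟩ := hex
      exact natCast_absNorm_eq_one_of_under hζ hv hw hwv)
  refine ⟨C, fun s hs1 hs2 => (hC s hs1 hs2).trans (le_of_eq ?_)⟩
  refine tsum_congr fun v => ?_
  split_ifs <;> simp

/-- The norm group is at most as large as `[L : E]` when `L ∋ ζ_m`. -/
theorem card_normGroup_le_finrank (E : Type*) [Field E] [NumberField E] (L : Type*) [Field L]
    [NumberField L] [Algebra E L] {m : ℕ} [NeZero m] {ζ : L} (hζ : IsPrimitiveRoot ζ m) :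
    Nat.card (normGroup E m) ≤ Module.finrank E L := by
  refine card_le_finrank_of_prime_norm E L (span_natCast_ne_bot (NeZero.ne m)) (normResR E m)
    (normResR_surjective m) (normResR_rayOne m) fun v h w hw hwv => ?_
  refine Subtype.ext ?_
  rw [normResR_coe]
  exact (normRes_eq_one_iff m ⟨v.asIdeal, h⟩).mpr (natCast_absNorm_eq_one_of_under hζ h hw hwv)

/-- The hypothesis `hLB` of `NormResidueInd.pair_density_normRes`, when `[L : E] ≤ |H'|`. -/
theorem hLB_normGroup (E : Type*) [Field E] [NumberField E] (L : Type*) [Field L]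
    [NumberField L] [Algebra E L] {m : ℕ} [NeZero m] {ζ : L} (hζ : IsPrimitiveRoot ζ m)
    (hdeg : Module.finrank E L ≤ Nat.card (normGroup E m)) :
    ∃ C : ℝ, ∀ s : ℝ, 1 < s → s ≤ 2 →
      Real.log (1 / (s - 1)) / (Nat.card (normGroup E m) : ℝ) - C ≤
        ∑' v : HeightOneSpectrum (𝓞 E),
          (if ((Ideal.absNorm v.asIdeal : ℕ) : ZMod m) = 1 then (1 : ℝ) else 0) *
            PrimeSums.term E s v.asIdeal := by
  have heq : Nat.card (normGroup E m) = Module.finrank E L :=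
    le_antisymm (card_normGroup_le_finrank E L hζ) hdeg
  rw [heq]
  exact cyclo_lower_bound E L hζ

/-! ## Regrouping by the norm -/

/-- **Translation to rational Dirichlet series.** A bounded weight on the primes of `E` which, on
primes of prime norm, depends only on the norm: the weighted prime sum is the Dirichlet series of
the weighted degree-one counts, up to a bounded error. -/
theorem bddOn_tsum_sub_DS (E : Type*) [Field E] [NumberField E]
    (g : HeightOneSpectrum (𝓞 E) → ℝ) (c : ℕ → ℝ) (B : ℝ)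
    (hg : ∀ v, |g v| ≤ B) (hc : ∀ n, |c n| ≤ B)
    (hgc : ∀ v : HeightOneSpectrum (𝓞 E), (Ideal.absNorm v.asIdeal).Prime →
      g v = c (Ideal.absNorm v.asIdeal)) :
    BddOn (fun s => ∑' v : HeightOneSpectrum (𝓞 E), g v * PrimeSums.term E s v.asIdeal
      - DS (fun n => c n * degOneCount E n) s) := by
  classical
  obtain ⟨C₂, hC₂⟩ := PrimeSums.nonprime_norm_bound E
  have hB0 : 0 ≤ B := (abs_nonneg _).trans (hc 0)
  refine ⟨B * C₂, fun s hs1 hs2 => ?_⟩
  have hs1' : Summable (ptermOne E s) := summable_ptermOne E hs1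
  have hs2' : Summable (ptermTwo E s) := summable_ptermTwo E hs1
  have hsg1 : Summable fun v : HeightOneSpectrum (𝓞 E) => g v * ptermOne E s v :=
    Summable.of_norm_bounded (hs1'.mul_left B) fun v => by
      rw [norm_mul, Real.norm_eq_abs, Real.norm_eq_abs, abs_of_nonneg (ptermOne_nonneg E s v)]
      exact mul_le_mul_of_nonneg_right (hg v) (ptermOne_nonneg E s v)
  have hsg2 : Summable fun v : HeightOneSpectrum (𝓞 E) => g v * ptermTwo E s v :=
    Summable.of_norm_bounded (hs2'.mul_left B) fun v => by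
      rw [norm_mul, Real.norm_eq_abs, Real.norm_eq_abs, abs_of_nonneg (ptermTwo_nonneg E s v)]
      exact mul_le_mul_of_nonneg_right (hg v) (ptermTwo_nonneg E s v)
  have hsplit : ∑' v : HeightOneSpectrum (𝓞 E), g v * PrimeSums.term E s v.asIdeal =
      ∑' v, g v * ptermOne E s v + ∑' v, g v * ptermTwo E s v := by
    rw [← hsg1.tsum_add hsg2]
    refine tsum_congr fun v => ?_
    rw [← mul_add, ptermOne_add_ptermTwo]
    rfl
  have hone : ∑' v, g v * ptermOne E s v = DS (fun n => c n * degOneCount E n) s := by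
    have hfin : ∀ n, Finite {w : HeightOneSpectrum (𝓞 E) // Ideal.absNorm w.asIdeal = n} :=
      finite_norm_eq E
    have e1 := (Equiv.sigmaFiberEquiv
        (fun w : HeightOneSpectrum (𝓞 E) => Ideal.absNorm w.asIdeal)).tsum_eq
        (fun v => g v * ptermOne E s v)
    have hsig := (Equiv.sigmaFiberEquiv
        (fun w : HeightOneSpectrum (𝓞 E) => Ideal.absNorm w.asIdeal)).summable_iff.mpr hsg1
    rw [Function.comp_def] at hsig
    rw [← e1, Summable.tsum_sigma' (fun n => Summable.of_finite) hsig]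
    unfold DS
    refine tsum_congr fun n => ?_
    have h : ∀ w : {w : HeightOneSpectrum (𝓞 E) // Ideal.absNorm w.asIdeal = n},
        g ((Equiv.sigmaFiberEquiv
          (fun w : HeightOneSpectrum (𝓞 E) => Ideal.absNorm w.asIdeal)) ⟨n, w⟩) *
        ptermOne E s ((Equiv.sigmaFiberEquiv
          (fun w : HeightOneSpectrum (𝓞 E) => Ideal.absNorm w.asIdeal)) ⟨n, w⟩) =
          c n * (if n.Prime then (n : ℝ) ^ (-s) else 0) := by
      intro w
      have hw : Ideal.absNorm (w.1 : HeightOneSpectrum (𝓞 E)).asIdeal = n := w.2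
      show g w.1 * ptermOne E s w.1 = _
      rw [ptermOne_of_norm_eq E s n w.1 hw]
      by_cases hp : n.Prime
      · rw [if_pos hp, hgc w.1 (by rw [hw]; exact hp), hw]
      · rw [if_neg hp, mul_zero, mul_zero]
    rw [tsum_congr h, tsum_const, nsmul_eq_mul]
    show _ = c n * degOneCount E n * (n : ℝ) ^ (-s)
    unfold degOneCount
    by_cases hp : n.Prime
    · rw [if_pos hp, if_pos hp]
      ring
    · rw [if_neg hp, if_neg hp]
      ring
  show |∑' v : HeightOneSpectrum (𝓞 E), g v * PrimeSums.term E s v.asIdeal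
      - DS (fun n => c n * degOneCount E n) s| ≤ B * C₂
  rw [hsplit, hone, add_sub_cancel_left]
  have h2le : ∑' w, ptermTwo E s w ≤ C₂ := by
    refine Real.tsum_le_of_sum_le (ptermTwo_nonneg E s) fun T => ?_
    have h : ∑ w ∈ T, ptermTwo E s w =
        ∑ w ∈ T.filter (fun w => ¬ (Ideal.absNorm w.asIdeal).Prime),
          ((Ideal.absNorm w.asIdeal : ℕ) : ℝ) ^ (-s) := by
      rw [Finset.sum_filter]
      refine Finset.sum_congr rfl fun w _ => ?_
      unfold ptermTwo
      split_ifs <;> rfl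
    rw [h]
    exact hC₂ s hs1 _ fun w hw => (Finset.mem_filter.mp hw).2
  calc |∑' v, g v * ptermTwo E s v| ≤ ∑' v, |g v * ptermTwo E s v| := by
        have := norm_tsum_le_tsum_norm hsg2.norm
        simpa [Real.norm_eq_abs] using this
    _ ≤ ∑' v, B * ptermTwo E s v := by
        refine hsg2.abs.tsum_le_tsum (fun v => ?_) (hs2'.mul_left B)
        rw [abs_mul, abs_of_nonneg (ptermTwo_nonneg E s v)]
        exact mul_le_mul_of_nonneg_right (hg v) (ptermTwo_nonneg E s v)
    _ = B * ∑' v, ptermTwo E s v := tsum_mul_left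
    _ ≤ B * C₂ := mul_le_mul_of_nonneg_left h2le hB0

/-! ## The pair density in the `Lib/FrobDensity` vocabulary -/

/-- **(G2), `E`-level form.** `E` a number field, `L ⊇ E` a number field containing a primitive
`m`-th root of unity with `[L : E] ≤ |H'|`, `H' = normGroup E m`.  For every `a ∈ H'`:
`∑_ℓ ([ℓ ≡ a] + [ℓ ≡ a⁻¹]) · #{w prime of E : N w = ℓ} · ℓ^(-s) = (2/[L:E]) log (1/(s-1)) + O(1)`
on `(1, 2]`. -/
theorem cyclo_pair_DS (E : Type*) [Field E] [NumberField E] (L : Type*) [Field L]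
    [NumberField L] [Algebra E L] (m : ℕ) [NeZero m] {ζ : L} (hζ : IsPrimitiveRoot ζ m)
    (hdeg : Module.finrank E L ≤ Nat.card (normGroup E m)) (a : (ZMod m)ˣ)
    (ha : a ∈ normGroup E m) :
    BddOn (fun s => DS (fun ℓ =>
        ((if (ℓ : ZMod m) = (a : ZMod m) then (1 : ℝ) else 0) +
          (if (ℓ : ZMod m) = ((a⁻¹ : (ZMod m)ˣ) : ZMod m) then (1 : ℝ) else 0)) *
            degOneCount E ℓ) s
      - 2 / (Module.finrank E L : ℝ) * Real.log (1 / (s - 1))) := by
  have heq : Nat.card (normGroup E m) = Module.finrank E L :=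
    le_antisymm (card_normGroup_le_finrank E L hζ) hdeg
  obtain ⟨C₁, hC₁⟩ := pair_density_normRes (E := E) m (hLB_normGroup E L hζ hdeg) ⟨a, ha⟩
  obtain ⟨C₂, hC₂⟩ := bddOn_tsum_sub_DS E
    (fun v => (if ((Ideal.absNorm v.asIdeal : ℕ) : ZMod m) = (a : ZMod m) then (1 : ℝ) else 0) +
      (if ((Ideal.absNorm v.asIdeal : ℕ) : ZMod m) = ((a⁻¹ : (ZMod m)ˣ) : ZMod m)
        then (1 : ℝ) else 0))
    (fun n => (if (n : ZMod m) = (a : ZMod m) then (1 : ℝ) else 0) +
      (if (n : ZMod m) = ((a⁻¹ : (ZMod m)ˣ) : ZMod m) then (1 : ℝ) else 0)) 2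
    (fun v => by split_ifs <;> norm_num) (fun n => by split_ifs <;> norm_num)
    (fun v _ => rfl)
  refine ⟨C₁ + C₂, fun s hs1 hs2 => ?_⟩
  have h1 : |(∑' v : HeightOneSpectrum (𝓞 E),
      ((if ((Ideal.absNorm v.asIdeal : ℕ) : ZMod m) = (a : ZMod m) then (1 : ℝ) else 0) +
        (if ((Ideal.absNorm v.asIdeal : ℕ) : ZMod m) = ((a⁻¹ : (ZMod m)ˣ) : ZMod m)
          then (1 : ℝ) else 0)) * PrimeSums.term E s v.asIdeal) -
      2 / (Module.finrank E L : ℝ) * Real.log (1 / (s - 1))| ≤ C₁ := by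
    have h := hC₁ s hs1 hs2
    rw [heq] at h
    exact h
  have h2 : |(∑' v : HeightOneSpectrum (𝓞 E),
      ((if ((Ideal.absNorm v.asIdeal : ℕ) : ZMod m) = (a : ZMod m) then (1 : ℝ) else 0) +
        (if ((Ideal.absNorm v.asIdeal : ℕ) : ZMod m) = ((a⁻¹ : (ZMod m)ˣ) : ZMod m)
          then (1 : ℝ) else 0)) * PrimeSums.term E s v.asIdeal) -
      DS (fun n => ((if (n : ZMod m) = (a : ZMod m) then (1 : ℝ) else 0) +
        (if (n : ZMod m) = ((a⁻¹ : (ZMod m)ˣ) : ZMod m) then (1 : ℝ) else 0)) *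
          degOneCount E n) s| ≤ C₂ := hC₂ s hs1 hs2
  have h1' := abs_le.mp h1
  have h2' := abs_le.mp h2
  show |DS (fun ℓ => ((if (ℓ : ZMod m) = (a : ZMod m) then (1 : ℝ) else 0) +
        (if (ℓ : ZMod m) = ((a⁻¹ : (ZMod m)ˣ) : ZMod m) then (1 : ℝ) else 0)) *
          degOneCount E ℓ) s - 2 / (Module.finrank E L : ℝ) * Real.log (1 / (s - 1))| ≤ C₁ + C₂
  rw [abs_le]
  constructor <;> linarith [h1'.1, h1'.2, h2'.1, h2'.2]

end Fermat.Agent.CFT.Analytic.CycloPairDS
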