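import Mathlib
import Fermat.Agent.S14.ClassZeta

/-!
# Partial zeta functions of ray classes

For a number field `K` and a nonzero ideal `𝔪` of `𝓞 K` we show that the partial zeta functions of
the (narrow) ray classes modulo `𝔪` all have the same behaviour as `s → 1⁺`: each differs from a
fixed function `Psi K 𝔪 s / N 𝔪` by a bounded amount on `(1, 2]`.

The proof reuses the weighted lattice sums of `Fermat.Agent.S14.ClassZeta`, restricted to
orthants (sign patterns at the real embeddings) and to cosets of ideals.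
-/

set_option autoImplicit false
set_option linter.unusedSectionVars false

namespace Fermat.Agent.CFT.Analytic.RayZeta

open NumberField Fermat.Agent.S14.ClassZeta

open scoped nonZeroDivisors Classical

noncomputable section

/-! ## Sign patterns -/

section Pattern

variable (K : Type*) [Field K] [NumberField K]

/-- The sign pattern of an element at the real embeddings. -/
def pat (x : K) : (K →+* ℝ) → Prop := fun σ => 0 < σ x

lemma pat_mul_of_pos {x y : K} (hx : ∀ σ : K →+* ℝ, 0 < σ x) : pat K (x * y) = pat K y := by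
  funext σ
  simp only [pat, map_mul]
  exact propext (mul_pos_iff_of_pos_left (hx σ))

/-- The infinite place attached to a real embedding. -/
def placeOf (σ : K →+* ℝ) : InfinitePlace K := InfinitePlace.mk (Complex.ofRealHom.comp σ)

lemma placeOf_apply (σ : K →+* ℝ) (x : K) : placeOf K σ x = |σ x| := by
  rw [placeOf, InfinitePlace.apply]
  simp

lemma abs_le_size (σ : K →+* ℝ) (x : K) : |σ x| ≤ size K x := by
  rw [← placeOf_apply]
  exact place_le_size K _ x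

/-- If the sign patterns of `b` and `b + r` differ, both are small at some real embedding. -/
lemma exists_abs_le_of_pat_ne {b r : K} (h : pat K (b + r) ≠ pat K b) :
    ∃ σ : K →+* ℝ, |σ b| ≤ |σ r| ∧ |σ (b + r)| ≤ |σ r| := by
  by_contra hcon
  push Not at hcon
  apply h
  funext σ
  simp only [pat, map_add]
  apply propext
  have hσ := hcon σ
  rw [map_add] at hσ
  constructor
  · intro h1
    by_contra h2
    have h3 : σ b ≤ 0 := not_lt.mp h2
    have hr : 0 < σ r := by linarith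
    have : |σ b| ≤ |σ r| := by
      rw [abs_of_nonpos h3, abs_of_pos hr]; linarith
    have h4 := hσ this
    rw [abs_of_pos h1, abs_of_pos hr] at h4
    linarith
  · intro h1
    by_contra h2
    have h3 : σ b + σ r ≤ 0 := not_lt.mp h2
    have hr : σ r < 0 := by linarith
    have : |σ b| ≤ |σ r| := by
      rw [abs_of_pos h1, abs_of_neg hr]; linarith
    have h4 := hσ this
    rw [abs_of_nonpos h3, abs_of_neg hr] at h4
    linarith

end Pattern

/-! ## The summand restricted to an orthant -/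

section Gs

variable (K : Type*) [Field K] [NumberField K]

/-- The summand `G`, restricted to the elements with sign pattern `ε`. -/
def Gs (ε : (K →+* ℝ) → Prop) (s : ℝ) (a : 𝓞 K) : ℝ :=
  if pat K (a : K) = ε then G K s a else 0

lemma Gs_nonneg (ε : (K →+* ℝ) → Prop) (s : ℝ) (a : 𝓞 K) : 0 ≤ Gs K ε s a := by
  unfold Gs
  split_ifs
  · exact G_nonneg K s a
  · exact le_rfl

lemma Gs_le_G (ε : (K →+* ℝ) → Prop) (s : ℝ) (a : 𝓞 K) : Gs K ε s a ≤ G K s a := by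
  unfold Gs
  split_ifs
  · exact le_rfl
  · exact G_nonneg K s a

lemma Gs_le_one (ε : (K →+* ℝ) → Prop) {s : ℝ} (hs : 0 ≤ s) (a : 𝓞 K) : Gs K ε s a ≤ 1 :=
  (Gs_le_G K ε s a).trans (G_le_one K hs a)

lemma summable_Gs (ε : (K →+* ℝ) → Prop) {s : ℝ} (hs : 1 < s) : Summable (Gs K ε s) :=
  Summable.of_nonneg_of_le (Gs_nonneg K ε s) (Gs_le_G K ε s) (summable_G K hs)

/-- The cut-off radius in the two-point estimate with signs. -/
def cutR (r : 𝓞 K) : ℝ := size K (r : K) * (1 + 1 / coneC K) + 1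

/-- The dominating function for the two-point differences of `Gs`. -/
def Dsg (r b : 𝓞 K) : ℝ := Dfun K r b + (if size K (b : K) < cutR K r then 1 else 0)

lemma Dfun_nonneg (r b : 𝓞 K) : 0 ≤ Dfun K r b := by
  unfold Dfun
  have h0 : 0 ≤ twoPtC K * size K (r : K) *
      ((size K (b : K)) ^ (Module.finrank ℚ K + 1))⁻¹ :=
    mul_nonneg (mul_nonneg (twoPtC_nonneg K) (size_nonneg K _))
      (inv_nonneg.mpr (pow_nonneg (size_nonneg K _) _))
  split_ifs <;> linarith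

lemma summable_Dsg (r : 𝓞 K) : Summable (Dsg K r) := by
  unfold Dsg
  refine (summable_Dfun K r).add ?_
  apply summable_of_hasFiniteSupport
  refine (finite_size_lt K (cutR K r)).subset ?_
  intro b hb
  simp only [Function.mem_support, ne_eq, ite_eq_right_iff, one_ne_zero, imp_false,
    not_not] at hb
  exact hb

/-- If `G` does not vanish at a nonzero point, the point is not small at any real embedding. -/
lemma size_le_of_G_ne_zero {s : ℝ} {a : 𝓞 K} (h : G K s a ≠ 0) (σ : K →+* ℝ) :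
    coneC K * size K (a : K) ≤ |σ (a : K)| := by
  have ha : a ≠ 0 := by
    rintro rfl
    exact h (by simp [G])
  have hw : weight K (a : K) ≠ 0 := by
    intro hw
    apply h
    rw [G, if_neg ha, hw, zero_mul]
  rw [← placeOf_apply]
  exact coneC_mul_size_le K (coe_ne_zero K ha) hw _

lemma abs_Gs_sub_le_Dsg (ε : (K →+* ℝ) → Prop) (r b : 𝓞 K) {s : ℝ} (hs1 : 1 ≤ s)
    (hs2 : s ≤ 2) : |Gs K ε s (b + r) - Gs K ε s b| ≤ Dsg K r b := by
  have hs0 : (0 : ℝ) ≤ s := by linarith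
  have hD := Dfun_nonneg K r b
  have hc := coneC_pos K
  by_cases hpat : pat K ((b + r : 𝓞 K) : K) = pat K (b : K)
  · -- same pattern
    have hnn : (0 : ℝ) ≤ if size K (b : K) < cutR K r then (1 : ℝ) else 0 := by
      split_ifs <;> norm_num
    unfold Dsg
    by_cases hε : pat K (b : K) = ε
    · have e1 : Gs K ε s b = G K s b := if_pos hε
      have e2 : Gs K ε s (b + r) = G K s (b + r) := if_pos (hpat.trans hε)
      rw [e1, e2]
      have := abs_G_sub_le_Dfun K r b hs1 hs2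
      linarith
    · have e1 : Gs K ε s b = 0 := if_neg hε
      have e2 : Gs K ε s (b + r) = 0 := if_neg (fun h => hε (hpat.symm.trans h))
      rw [e1, e2, sub_zero, abs_zero]
      linarith
  · -- different patterns: then `b` is small whenever one of the terms is nonzero
    have hpat' : pat K ((b : K) + (r : K)) ≠ pat K (b : K) := by
      intro h; apply hpat; rw [← h]; push_cast; rfl
    obtain ⟨σ, hσ1, hσ2⟩ := exists_abs_le_of_pat_ne K hpat'
    have hrs : |σ (r : K)| ≤ size K (r : K) := abs_le_size K σ _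
    have hbound : |Gs K ε s (b + r) - Gs K ε s b| ≤ 1 := by
      have h1 := Gs_nonneg K ε s (b + r)
      have h2 := Gs_nonneg K ε s b
      have h3 := Gs_le_one K ε hs0 (b + r)
      have h4 := Gs_le_one K ε hs0 b
      exact abs_le.mpr ⟨by linarith, by linarith⟩
    by_cases hsmall : size K (b : K) < cutR K r
    · unfold Dsg
      rw [if_pos hsmall]
      linarith
    · -- `b` is large: both terms vanish
      have hlarge : cutR K r ≤ size K (b : K) := not_lt.mp hsmall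
      have hGb : G K s b = 0 := by
        by_contra hne
        have h1 := size_le_of_G_ne_zero K hne σ
        have h2 : coneC K * size K (b : K) ≤ size K (r : K) := h1.trans (hσ1.trans hrs)
        have h3 : size K (b : K) ≤ size K (r : K) / coneC K := by
          rw [le_div_iff₀ hc]; linarith
        unfold cutR at hlarge
        have h4 : size K (r : K) * (1 + 1 / coneC K) =
            size K (r : K) + size K (r : K) / coneC K := by ring
        have := size_nonneg K (r : K)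
        linarith
      have hGbr : G K s (b + r) = 0 := by
        by_contra hne
        have h1 := size_le_of_G_ne_zero K hne σ
        have e : ((b + r : 𝓞 K) : K) = (b : K) + (r : K) := by push_cast; rfl
        rw [e] at h1
        have h2 : coneC K * size K ((b : K) + (r : K)) ≤ size K (r : K) :=
          h1.trans (hσ2.trans hrs)
        have h3 : size K ((b : K) + (r : K)) ≤ size K (r : K) / coneC K := by
          rw [le_div_iff₀ hc]; linarith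
        have h5 : size K (b : K) ≤ size K ((b : K) + (r : K)) + size K (r : K) := by
          have := size_add_le K ((b : K) + (r : K)) (-(r : K))
          rw [size_neg] at this
          have e2 : (b : K) + (r : K) + -(r : K) = (b : K) := by ring
          rwa [e2] at this
        unfold cutR at hlarge
        have h4 : size K (r : K) * (1 + 1 / coneC K) =
            size K (r : K) + size K (r : K) / coneC K := by ring
        linarith
      have e1 : Gs K ε s b = 0 := by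
        unfold Gs; split_ifs <;> simp [hGb]
      have e2 : Gs K ε s (b + r) = 0 := by
        unfold Gs; split_ifs <;> simp [hGbr]
      rw [e1, e2, sub_zero, abs_zero]
      unfold Dsg
      rw [if_neg hsmall, add_zero]
      exact hD

end Gs

/-! ## Ray conditions -/

section Ray

variable (K : Type*) [Field K] [NumberField K]

/-- `α ≡ 1 mod* 𝔪∞`: `α` is nonzero, congruent to `1` modulo `𝔪`, and totally positive. -/
def RayOne (𝔪 : Ideal (𝓞 K)) (α : 𝓞 K) : Prop :=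
  α ≠ 0 ∧ α - 1 ∈ 𝔪 ∧ ∀ σ : K →+* ℝ, 0 < σ (α : K)

variable {K}

lemma rayOne_one (𝔪 : Ideal (𝓞 K)) : RayOne K 𝔪 1 :=
  ⟨one_ne_zero, by simp, fun σ => by simp⟩

lemma RayOne.mul {𝔪 : Ideal (𝓞 K)} {α β : 𝓞 K} (hα : RayOne K 𝔪 α) (hβ : RayOne K 𝔪 β) :
    RayOne K 𝔪 (α * β) := by
  refine ⟨mul_ne_zero hα.1 hβ.1, ?_, fun σ => ?_⟩
  · have e : α * β - 1 = α * (β - 1) + (α - 1) := by ring
    rw [e]
    exact 𝔪.add_mem (𝔪.mul_mem_left _ hβ.2.1) hα.2.1
  · have e : ((α * β : 𝓞 K) : K) = (α : K) * (β : K) := by push_cast; rfl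
    rw [e, map_mul]
    exact mul_pos (hα.2.2 σ) (hβ.2.2 σ)

/-- Cancellation: if `α` and `α * γ` are `≡ 1 mod* 𝔪∞`, so is `γ`. -/
lemma RayOne.of_mul {𝔪 : Ideal (𝓞 K)} {α γ : 𝓞 K} (hα : RayOne K 𝔪 α)
    (hαγ : RayOne K 𝔪 (α * γ)) : RayOne K 𝔪 γ := by
  refine ⟨right_ne_zero_of_mul hαγ.1, ?_, fun σ => ?_⟩
  · have e : γ - 1 = (α * γ - 1) - (α - 1) * γ := by ring
    rw [e]
    exact 𝔪.sub_mem hαγ.2.1 (𝔪.mul_mem_right _ hα.2.1)
  · have h := hαγ.2.2 σ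
    have e : ((α * γ : 𝓞 K) : K) = (α : K) * (γ : K) := by push_cast; rfl
    rw [e, map_mul] at h
    exact (mul_pos_iff_of_pos_left (hα.2.2 σ)).mp h

variable (K)

/-- The ideals `I` such that `I * J` is generated by an element `≡ 1 mod* 𝔪∞`: this is the ray
class inverse to that of `J`. -/
def rayClass (𝔪 J : Ideal (𝓞 K)) : Set (Ideal (𝓞 K)) :=
  {I | ∃ α : 𝓞 K, RayOne K 𝔪 α ∧ I * J = Ideal.span {α}}

/-- The elements of `J` having a unit multiple `≡ 1 mod* 𝔪∞`. -/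
def raySet (𝔪 J : Ideal (𝓞 K)) : Set (𝓞 K) :=
  {β | β ∈ J ∧ ∃ u : (𝓞 K)ˣ, RayOne K 𝔪 ((u : 𝓞 K) * β)}

variable {K}

/-- The lattice sum over `raySet 𝔪 J` computes the partial zeta function of `rayClass 𝔪 J`, up to
the factor `N(J)^(-s)`. -/
lemma hasSum_rayZeta (𝔪 : Ideal (𝓞 K)) {J : Ideal (𝓞 K)} (hJ0 : J ≠ ⊥) {s : ℝ} (hs : 1 < s) :
    HasSum (fun I : rayClass K 𝔪 J =>
        (Ideal.absNorm (I.1 : Ideal (𝓞 K)) : ℝ) ^ (-s) * (Ideal.absNorm J : ℝ) ^ (-s))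
      (∑' a, (raySet K 𝔪 J).indicator (G K s) a) := by
  classical
  have hex : ∀ I : rayClass K 𝔪 J, ∃ α : 𝓞 K, RayOne K 𝔪 α ∧ I.1 * J = Ideal.span {α} :=
    fun I => I.2
  choose gen hgenR hgen using hex
  have hgen0 : ∀ I, gen I ≠ 0 := fun I => (hgenR I).1
  obtain ⟨Φ, hΦ⟩ : ∃ Φ : rayClass K 𝔪 J × (𝓞 K)ˣ → 𝓞 K,
      ∀ p, Φ p = (p.2 : 𝓞 K) * gen p.1 := ⟨fun p => (p.2 : 𝓞 K) * gen p.1, fun _ => rfl⟩
  have hΦinj : Function.Injective Φ := by
    rintro ⟨I, u⟩ ⟨I', u'⟩ h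
    rw [hΦ, hΦ] at h
    dsimp only at h
    have hspan : Ideal.span {gen I} = Ideal.span {gen I'} := by
      rw [← Ideal.span_singleton_mul_left_unit u.isUnit (gen I),
        ← Ideal.span_singleton_mul_left_unit u'.isUnit (gen I'), h]
    rw [← hgen, ← hgen] at hspan
    have hII : (I.1 : Ideal (𝓞 K)) = I'.1 := mul_right_cancel₀ hJ0 hspan
    have hI : I = I' := Subtype.ext hII
    subst hI
    have hu : (u : 𝓞 K) = u' := mul_right_cancel₀ (hgen0 I) h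
    rw [Units.ext hu]
  have hgenJ : ∀ I, gen I ∈ J := by
    intro I
    have h := Ideal.mem_span_singleton_self (gen I)
    rw [← hgen] at h
    exact (Ideal.mul_le_right : (I.1 : Ideal (𝓞 K)) * J ≤ J) h
  have hrange : ∀ a ∉ Set.range Φ, (raySet K 𝔪 J).indicator (G K s) a = 0 := by
    intro a ha
    by_contra hne
    apply ha
    have haR : a ∈ raySet K 𝔪 J := by
      by_contra h
      exact hne (Set.indicator_of_notMem h _)
    obtain ⟨haJ, u, hu⟩ := haR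
    have hαJ : (u : 𝓞 K) * a ∈ J := J.mul_mem_left _ haJ
    obtain ⟨I₀, hI₀⟩ := Ideal.dvd_span_singleton.mpr hαJ
    have hmem : I₀ ∈ rayClass K 𝔪 J := ⟨(u : 𝓞 K) * a, hu, by rw [hI₀, mul_comm]⟩
    have hspan : Ideal.span {gen ⟨I₀, hmem⟩} = Ideal.span {(u : 𝓞 K) * a} := by
      rw [← hgen, hI₀, mul_comm]
    obtain ⟨v, hv⟩ := Ideal.span_singleton_eq_span_singleton.mp hspan
    refine ⟨(⟨I₀, hmem⟩, u⁻¹ * v), ?_⟩
    rw [hΦ]
    dsimp only
    have e : ((u⁻¹ * v : (𝓞 K)ˣ) : 𝓞 K) * gen ⟨I₀, hmem⟩ =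
        ((u⁻¹ : (𝓞 K)ˣ) : 𝓞 K) * (gen ⟨I₀, hmem⟩ * (v : 𝓞 K)) := by
      push_cast; ring
    rw [e, hv, ← mul_assoc, ← Units.val_mul, inv_mul_cancel, Units.val_one, one_mul]
  have hS : Summable ((raySet K 𝔪 J).indicator (G K s)) := (summable_G K hs).indicator _
  have h1 : HasSum (((raySet K 𝔪 J).indicator (G K s)) ∘ Φ)
      (∑' a, (raySet K 𝔪 J).indicator (G K s) a) :=
    (hΦinj.hasSum_iff hrange).mpr hS.hasSum
  have hcomp : ∀ p : rayClass K 𝔪 J × (𝓞 K)ˣ,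
      (((raySet K 𝔪 J).indicator (G K s)) ∘ Φ) p =
        weight K ((((p.2 : (𝓞 K)ˣ) : 𝓞 K) : K) * (gen p.1 : K)) *
          absN K (gen p.1 : K) ^ (-s) := by
    intro p
    have hmem : Φ p ∈ raySet K 𝔪 J := by
      rw [hΦ]
      refine ⟨J.mul_mem_left _ (hgenJ _), p.2⁻¹, ?_⟩
      rw [← mul_assoc, ← Units.val_mul, inv_mul_cancel, Units.val_one, one_mul]
      exact hgenR _
    have hne : Φ p ≠ 0 := by
      rw [hΦ]; exact mul_ne_zero (Units.ne_zero _) (hgen0 _)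
    simp only [Function.comp_apply]
    rw [Set.indicator_of_mem hmem, G, if_neg hne]
    have e : ((Φ p : 𝓞 K) : K) = (((p.2 : (𝓞 K)ˣ) : 𝓞 K) : K) * (gen p.1 : K) := by
      rw [hΦ]; push_cast; ring
    rw [e, absN_unit_mul]
  have h2 : HasSum (fun I : rayClass K 𝔪 J => absN K (gen I : K) ^ (-s))
      (∑' a, (raySet K 𝔪 J).indicator (G K s) a) := by
    refine HasSum.prod_fiberwise h1 fun I => ?_
    have h3 := (hasSum_weight_units K (coe_ne_zero K (hgen0 I))).mul_right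
      (absN K (gen I : K) ^ (-s))
    rw [one_mul] at h3
    have hfun : (fun u : (𝓞 K)ˣ => (((raySet K 𝔪 J).indicator (G K s)) ∘ Φ) (I, u)) =
        fun u : (𝓞 K)ˣ => weight K (((u : 𝓞 K) : K) * (gen I : K)) *
          absN K (gen I : K) ^ (-s) := funext fun u => hcomp (I, u)
    rw [hfun]
    exact h3
  have hfun2 : (fun I : rayClass K 𝔪 J => absN K (gen I : K) ^ (-s)) =
      fun I : rayClass K 𝔪 J =>
        (Ideal.absNorm (I.1 : Ideal (𝓞 K)) : ℝ) ^ (-s) * (Ideal.absNorm J : ℝ) ^ (-s) := by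
    funext I
    rw [absN_coe, ← hgen, map_mul, Nat.cast_mul,
      Real.mul_rpow (Nat.cast_nonneg _) (Nat.cast_nonneg _)]
  rw [hfun2] at h2
  exact h2

end Ray

/-! ## Types of units and the decomposition of `raySet` -/

section Types

variable (K : Type*) [Field K] [NumberField K]

/-- The type of a unit: its residue modulo `𝔪` and its sign pattern. -/
def unitType (𝔪 : Ideal (𝓞 K)) (u : (𝓞 K)ˣ) : (𝓞 K ⧸ 𝔪) × ((K →+* ℝ) → Prop) :=
  (Ideal.Quotient.mk 𝔪 (u : 𝓞 K), pat K ((u : 𝓞 K) : K))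

/-- The set of types of units. -/
def Theta (𝔪 : Ideal (𝓞 K)) : Set ((𝓞 K ⧸ 𝔪) × ((K →+* ℝ) → Prop)) :=
  Set.range (unitType K 𝔪)

lemma unit_inv_mul (u : (𝓞 K)ˣ) (σ : K →+* ℝ) :
    σ (((u⁻¹ : (𝓞 K)ˣ) : 𝓞 K) : K) * σ ((u : 𝓞 K) : K) = 1 := by
  rw [← map_mul]
  have : ((((u⁻¹ : (𝓞 K)ˣ) : 𝓞 K) : K)) * ((u : 𝓞 K) : K) = 1 := by
    have h : ((u⁻¹ : (𝓞 K)ˣ) : 𝓞 K) * (u : 𝓞 K) = 1 := by
      rw [← Units.val_mul, inv_mul_cancel, Units.val_one]
    simp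
  rw [this, map_one]

lemma mem_raySet_iff (𝔪 J : Ideal (𝓞 K)) {β : 𝓞 K} (hβ : β ≠ 0) :
    β ∈ raySet K 𝔪 J ↔
      β ∈ J ∧ (Ideal.Quotient.mk 𝔪 β, pat K (β : K)) ∈ Theta K 𝔪 := by
  constructor
  · rintro ⟨hJ, u, hu⟩
    refine ⟨hJ, u⁻¹, ?_⟩
    unfold unitType
    refine Prod.ext ?_ ?_
    · show Ideal.Quotient.mk 𝔪 ((u⁻¹ : (𝓞 K)ˣ) : 𝓞 K) = Ideal.Quotient.mk 𝔪 β
      rw [Ideal.Quotient.eq]
      have e : ((u⁻¹ : (𝓞 K)ˣ) : 𝓞 K) - β = -(((u⁻¹ : (𝓞 K)ˣ) : 𝓞 K) * ((u : 𝓞 K) * β - 1)) := by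
        have h : ((u⁻¹ : (𝓞 K)ˣ) : 𝓞 K) * (u : 𝓞 K) = 1 := by
          rw [← Units.val_mul, inv_mul_cancel, Units.val_one]
        calc ((u⁻¹ : (𝓞 K)ˣ) : 𝓞 K) - β
            = ((u⁻¹ : (𝓞 K)ˣ) : 𝓞 K) - (((u⁻¹ : (𝓞 K)ˣ) : 𝓞 K) * (u : 𝓞 K)) * β := by
              rw [h, one_mul]
          _ = -(((u⁻¹ : (𝓞 K)ˣ) : 𝓞 K) * ((u : 𝓞 K) * β - 1)) := by ring
      rw [e]
      exact 𝔪.neg_mem (𝔪.mul_mem_left _ hu.2.1)
    · show pat K (((u⁻¹ : (𝓞 K)ˣ) : 𝓞 K) : K) = pat K (β : K)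
      funext σ
      have h1 := hu.2.2 σ
      have e : (((u : 𝓞 K) * β : 𝓞 K) : K) = ((u : 𝓞 K) : K) * (β : K) := by push_cast; rfl
      rw [e, map_mul] at h1
      have h2 := unit_inv_mul K u σ
      have h3 : 0 < σ (((u⁻¹ : (𝓞 K)ˣ) : 𝓞 K) : K) * σ ((u : 𝓞 K) : K) := by
        rw [h2]; exact one_pos
      simp only [pat]
      exact propext ((pos_iff_pos_of_mul_pos h3).trans (pos_iff_pos_of_mul_pos h1))
  · rintro ⟨hJ, v, hv⟩
    unfold unitType at hv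
    have hv1 : Ideal.Quotient.mk 𝔪 (v : 𝓞 K) = Ideal.Quotient.mk 𝔪 β := congrArg Prod.fst hv
    have hv2 : pat K ((v : 𝓞 K) : K) = pat K (β : K) := congrArg Prod.snd hv
    refine ⟨hJ, v⁻¹, mul_ne_zero (Units.ne_zero _) hβ, ?_, fun σ => ?_⟩
    · rw [Ideal.Quotient.eq] at hv1
      have e : ((v⁻¹ : (𝓞 K)ˣ) : 𝓞 K) * β - 1 = -(((v⁻¹ : (𝓞 K)ˣ) : 𝓞 K) * ((v : 𝓞 K) - β)) := by
        have h : ((v⁻¹ : (𝓞 K)ˣ) : 𝓞 K) * (v : 𝓞 K) = 1 := by
          rw [← Units.val_mul, inv_mul_cancel, Units.val_one]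
        calc ((v⁻¹ : (𝓞 K)ˣ) : 𝓞 K) * β - 1
            = ((v⁻¹ : (𝓞 K)ˣ) : 𝓞 K) * β - ((v⁻¹ : (𝓞 K)ˣ) : 𝓞 K) * (v : 𝓞 K) := by rw [h]
          _ = -(((v⁻¹ : (𝓞 K)ˣ) : 𝓞 K) * ((v : 𝓞 K) - β)) := by ring
      rw [e]
      exact 𝔪.neg_mem (𝔪.mul_mem_left _ hv1)
    · have e : ((((v⁻¹ : (𝓞 K)ˣ) : 𝓞 K) * β : 𝓞 K) : K) =
          (((v⁻¹ : (𝓞 K)ˣ) : 𝓞 K) : K) * (β : K) := by push_cast; rfl
      rw [e, map_mul]
      have h2 := unit_inv_mul K v σ
      have hb : σ (β : K) ≠ 0 := (map_ne_zero σ).mpr (coe_ne_zero K hβ)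
      have hpat : (0 < σ ((v : 𝓞 K) : K)) ↔ (0 < σ (β : K)) := by
        have := congrFun hv2 σ
        simp only [pat] at this
        exact Iff.of_eq this
      rcases lt_trichotomy (σ ((v : 𝓞 K) : K)) 0 with ha | ha | ha
      · have hc : σ (((v⁻¹ : (𝓞 K)ˣ) : 𝓞 K) : K) < 0 := by
          by_contra hcon
          have := mul_nonpos_of_nonneg_of_nonpos (not_lt.mp hcon) ha.le
          linarith
        have hb' : σ (β : K) < 0 := by
          rcases lt_or_gt_of_ne hb with h | h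
          · exact h
          · exact absurd (hpat.mpr h) (not_lt.mpr ha.le)
        exact mul_pos_of_neg_of_neg hc hb'
      · rw [ha, mul_zero] at h2
        exact absurd h2 zero_ne_one
      · have hc : 0 < σ (((v⁻¹ : (𝓞 K)ˣ) : 𝓞 K) : K) := by
          by_contra hcon
          have := mul_nonpos_of_nonpos_of_nonneg (not_lt.mp hcon) ha.le
          linarith
        exact mul_pos hc (hpat.mp ha)

lemma G_zero (s : ℝ) : G K s 0 = 0 := by simp [G]

lemma Gs_zero (ε : (K →+* ℝ) → Prop) (s : ℝ) : Gs K ε s 0 = 0 := by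
  unfold Gs
  split_ifs
  · exact G_zero K s
  · rfl

/-- The elements of `J` with a given residue modulo `𝔪`. -/
def resSet (𝔪 J : Ideal (𝓞 K)) (x : 𝓞 K ⧸ 𝔪) : Set (𝓞 K) :=
  {β | β ∈ J ∧ Ideal.Quotient.mk 𝔪 β = x}

/-- Decomposition of the indicator of `raySet` according to types. -/
lemma indicator_raySet_eq (𝔪 J : Ideal (𝓞 K)) [Fintype (Theta K 𝔪)] (s : ℝ) (β : 𝓞 K) :
    (raySet K 𝔪 J).indicator (G K s) β =
      ∑ θ : Theta K 𝔪, (resSet K 𝔪 J θ.1.1).indicator (Gs K θ.1.2 s) β := by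
  by_cases hβ : β = 0
  · subst hβ
    have h1 : (raySet K 𝔪 J).indicator (G K s) 0 = 0 := by
      by_cases h : (0 : 𝓞 K) ∈ raySet K 𝔪 J
      · rw [Set.indicator_of_mem h, G_zero]
      · rw [Set.indicator_of_notMem h]
    rw [h1]
    symm
    apply Finset.sum_eq_zero
    rintro ⟨θ, _⟩ _
    by_cases h : (0 : 𝓞 K) ∈ resSet K 𝔪 J θ.1
    · rw [Set.indicator_of_mem h, Gs_zero]
    · rw [Set.indicator_of_notMem h]
  · by_cases hmem : β ∈ raySet K 𝔪 J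
    · rw [Set.indicator_of_mem hmem]
      obtain ⟨hJ, hθ⟩ := (mem_raySet_iff K 𝔪 J hβ).mp hmem
      rw [Finset.sum_eq_single (⟨_, hθ⟩ : Theta K 𝔪)]
      · have h : β ∈ resSet K 𝔪 J (Ideal.Quotient.mk 𝔪 β) := ⟨hJ, rfl⟩
        rw [Set.indicator_of_mem h]
        unfold Gs
        rw [if_pos rfl]
      · intro θ _ hne
        by_cases hc : β ∈ resSet K 𝔪 J θ.1.1
        · rw [Set.indicator_of_mem hc]
          unfold Gs
          rw [if_neg]
          intro hp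
          apply hne
          apply Subtype.ext
          exact Prod.ext hc.2.symm hp.symm
        · rw [Set.indicator_of_notMem hc]
      · intro h
        exact absurd (Finset.mem_univ _) h
    · rw [Set.indicator_of_notMem hmem]
      symm
      apply Finset.sum_eq_zero
      intro θ _
      by_cases hc : β ∈ resSet K 𝔪 J θ.1.1
      · rw [Set.indicator_of_mem hc]
        unfold Gs
        rw [if_neg]
        intro hp
        apply hmem
        rw [mem_raySet_iff K 𝔪 J hβ]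
        refine ⟨hc.1, ?_⟩
        have : (Ideal.Quotient.mk 𝔪 β, pat K (β : K)) = θ.1 := Prod.ext hc.2 hp
        rw [this]
        exact θ.2
      · rw [Set.indicator_of_notMem hc]

end Types

/-! ## Comparison of lattice sums -/

section Compare

variable (K : Type*) [Field K] [NumberField K]

lemma Dsg_nonneg (r b : 𝓞 K) : 0 ≤ Dsg K r b := by
  unfold Dsg
  have := Dfun_nonneg K r b
  split_ifs <;> linarith

/-- Shifting a coset of an ideal to the ideal itself changes the orthant sum by a bounded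
amount. -/
lemma abs_shift_sub_le (Λ : Ideal (𝓞 K)) (ε : (K →+* ℝ) → Prop) (y : 𝓞 K) {s : ℝ}
    (hs1 : 1 < s) (hs2 : s ≤ 2) :
    |∑' b, (Λ : Set (𝓞 K)).indicator (fun b => Gs K ε s (b + y)) b -
        ∑' b, (Λ : Set (𝓞 K)).indicator (Gs K ε s) b| ≤ ∑' b, Dsg K y b := by
  have hG := summable_Gs K ε hs1
  have hshift : Summable fun b => Gs K ε s (b + y) :=
    hG.comp_injective (add_left_injective y)
  have e : ∑' b, (Λ : Set (𝓞 K)).indicator (fun b => Gs K ε s (b + y)) b -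
      ∑' b, (Λ : Set (𝓞 K)).indicator (Gs K ε s) b =
      ∑' b, (Λ : Set (𝓞 K)).indicator (fun b => Gs K ε s (b + y) - Gs K ε s b) b := by
    rw [← Summable.tsum_sub (hshift.indicator _) (hG.indicator _)]
    refine tsum_congr fun b => ?_
    by_cases hb : b ∈ (Λ : Set (𝓞 K))
    · rw [Set.indicator_of_mem hb, Set.indicator_of_mem hb, Set.indicator_of_mem hb]
    · rw [Set.indicator_of_notMem hb, Set.indicator_of_notMem hb, Set.indicator_of_notMem hb,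
        sub_zero]
  rw [e, ← Real.norm_eq_abs]
  refine tsum_of_norm_bounded (summable_Dsg K y).hasSum fun b => ?_
  rw [Real.norm_eq_abs]
  by_cases hb : b ∈ (Λ : Set (𝓞 K))
  · rw [Set.indicator_of_mem hb]
    exact abs_Gs_sub_le_Dsg K ε y b hs1.le hs2
  · rw [Set.indicator_of_notMem hb, abs_zero]
    exact Dsg_nonneg K y b

/-- The sum over the elements of `J` with a given residue modulo `𝔪` is a shifted sum over
`J ⊓ 𝔪`. -/
lemma tsum_residue_eq (𝔪 J : Ideal (𝓞 K)) (ε : (K →+* ℝ) → Prop) (s : ℝ) {y : 𝓞 K}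
    (hy : y ∈ J) :
    ∑' β, (resSet K 𝔪 J (Ideal.Quotient.mk 𝔪 y)).indicator (Gs K ε s) β =
      ∑' b, ((J ⊓ 𝔪 : Ideal (𝓞 K)) : Set (𝓞 K)).indicator (fun b => Gs K ε s (b + y)) b := by
  rw [← (Equiv.addRight y).tsum_eq]
  refine tsum_congr fun b => ?_
  have hiff : (Equiv.addRight y b ∈ resSet K 𝔪 J (Ideal.Quotient.mk 𝔪 y)) ↔
      b ∈ ((J ⊓ 𝔪 : Ideal (𝓞 K)) : Set (𝓞 K)) := by
    show (b + y ∈ J ∧ Ideal.Quotient.mk 𝔪 (b + y) = Ideal.Quotient.mk 𝔪 y) ↔ _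
    rw [SetLike.mem_coe, Ideal.mem_inf, Ideal.Quotient.eq, add_sub_cancel_right]
    constructor
    · rintro ⟨h1, h2⟩
      exact ⟨by simpa using J.sub_mem h1 hy, h2⟩
    · rintro ⟨h1, h2⟩
      exact ⟨J.add_mem h1 hy, h2⟩
  by_cases hb : b ∈ ((J ⊓ 𝔪 : Ideal (𝓞 K)) : Set (𝓞 K))
  · rw [Set.indicator_of_mem hb, Set.indicator_of_mem (hiff.mpr hb)]
    rfl
  · rw [Set.indicator_of_notMem hb, Set.indicator_of_notMem (fun h => hb (hiff.mp h))]

/-- The reference function: the sum of the orthant sums over all types of units. -/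
def Psi (𝔪 : Ideal (𝓞 K)) (s : ℝ) : ℝ :=
  ∑ᶠ θ : Theta K 𝔪, ∑' b, Gs K θ.1.2 s b

lemma Psi_eq_sum (𝔪 : Ideal (𝓞 K)) [Fintype (Theta K 𝔪)] (s : ℝ) :
    Psi K 𝔪 s = ∑ θ : Theta K 𝔪, ∑' b, Gs K θ.1.2 s b :=
  finsum_eq_sum_of_fintype _

lemma Psi_nonneg (𝔪 : Ideal (𝓞 K)) (s : ℝ) : 0 ≤ Psi K 𝔪 s :=
  finsum_nonneg fun _ => tsum_nonneg fun b => Gs_nonneg K _ s b

lemma exists_mem_residue {𝔪 J : Ideal (𝓞 K)} (hJ : IsCoprime J 𝔪) (x : 𝓞 K ⧸ 𝔪) :
    ∃ y : 𝓞 K, y ∈ J ∧ Ideal.Quotient.mk 𝔪 y = x := by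
  obtain ⟨x₀, rfl⟩ := Ideal.Quotient.mk_surjective x
  rw [Ideal.isCoprime_iff_exists] at hJ
  obtain ⟨j, hj, m, hm, hjm⟩ := hJ
  refine ⟨x₀ * j, J.mul_mem_left _ hj, ?_⟩
  rw [Ideal.Quotient.eq]
  have e : x₀ * j - x₀ = -(x₀ * m) := by
    have : j = 1 - m := by rw [← hjm]; ring
    rw [this]; ring
  rw [e]
  exact 𝔪.neg_mem (𝔪.mul_mem_left _ hm)

end Compare

/-! ## The main theorem -/

section Main

variable (K : Type*) [Field K] [NumberField K]

lemma absNorm_cast_ge_one {I : Ideal (𝓞 K)} (hI : I ≠ ⊥) : (1 : ℝ) ≤ (Ideal.absNorm I : ℝ) := by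
  have h : Ideal.absNorm I ≠ 0 := by
    rw [Ne, Ideal.absNorm_eq_zero_iff]; exact hI
  exact_mod_cast Nat.one_le_iff_ne_zero.mpr h

/-- Summability of the partial zeta function of a ray class. -/
theorem rayZeta_summable (𝔪 : Ideal (𝓞 K)) {J : Ideal (𝓞 K)} (hJ0 : J ≠ ⊥) {s : ℝ}
    (hs : 1 < s) :
    Summable fun I : rayClass K 𝔪 J => (Ideal.absNorm (I.1 : Ideal (𝓞 K)) : ℝ) ^ (-s) := by
  have h := (hasSum_rayZeta 𝔪 hJ0 hs).summable
  have hpos : (0 : ℝ) < (Ideal.absNorm J : ℝ) :=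
    lt_of_lt_of_le one_pos (absNorm_cast_ge_one K hJ0)
  exact (summable_mul_right_iff (Real.rpow_pos_of_pos hpos _).ne').mp h

/-- **Ray class zeta functions share their pole.** The partial zeta function of the ray class
`rayClass 𝔪 J` differs from `Psi K 𝔪 s / N 𝔪` by a bounded amount on `(1, 2]`. -/
theorem rayZeta_sub_Psi_bounded (𝔪 J : Ideal (𝓞 K)) (h𝔪 : 𝔪 ≠ ⊥) (hJ0 : J ≠ ⊥)
    (hJ : IsCoprime J 𝔪) :
    ∃ B : ℝ, ∀ s : ℝ, 1 < s → s ≤ 2 →
      |(∑' I : rayClass K 𝔪 J, (Ideal.absNorm (I.1 : Ideal (𝓞 K)) : ℝ) ^ (-s))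
        - Psi K 𝔪 s / (Ideal.absNorm 𝔪 : ℝ)| ≤ B := by
  classical
  have : Finite (𝓞 K ⧸ 𝔪) := Ideal.finiteQuotientOfFreeOfNeBot 𝔪 h𝔪
  have : Fintype (Theta K 𝔪) := Fintype.ofFinite _
  have hy : ∀ θ : Theta K 𝔪, ∃ y : 𝓞 K, y ∈ J ∧ Ideal.Quotient.mk 𝔪 y = θ.1.1 :=
    fun θ => exists_mem_residue K hJ θ.1.1
  choose y hyJ hymk using hy
  set Λ : Ideal (𝓞 K) := J ⊓ 𝔪 with hΛ
  have hΛmul : Λ = J * 𝔪 := by rw [hΛ, Ideal.mul_eq_inf_of_isCoprime hJ]
  have hΛ0 : Λ ≠ ⊥ := by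
    rw [hΛmul]; exact mul_ne_zero hJ0 h𝔪
  have hfin : Finite (𝓞 K ⧸ Λ.toAddSubgroup) := Ideal.finiteQuotientOfFreeOfNeBot Λ hΛ0
  obtain ⟨R, hRcard, hR⟩ := exists_coset_reps Λ.toAddSubgroup
  have hcard : (R.card : ℝ) = (Ideal.absNorm J : ℝ) * (Ideal.absNorm 𝔪 : ℝ) := by
    have h1 : Nat.card (𝓞 K ⧸ Λ.toAddSubgroup) = Ideal.absNorm Λ := by
      rw [Ideal.absNorm_apply, Submodule.cardQuot_apply]; rfl
    rw [hRcard, h1, hΛmul, map_mul, Nat.cast_mul]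
  obtain ⟨A, hA0, hA⟩ := exists_tsum_G_le K
  have hnJ : (1 : ℝ) ≤ (Ideal.absNorm J : ℝ) := absNorm_cast_ge_one K hJ0
  have hn𝔪 : (1 : ℝ) ≤ (Ideal.absNorm 𝔪 : ℝ) := absNorm_cast_ge_one K h𝔪
  set nJ : ℝ := (Ideal.absNorm J : ℝ) with hnJdef
  set n𝔪 : ℝ := (Ideal.absNorm 𝔪 : ℝ) with hn𝔪def
  set E1 : ℝ := ∑ θ : Theta K 𝔪, ∑' b, Dsg K (y θ) b with hE1
  set E2 : ℝ := ∑ r ∈ R, ∑' b, Dsg K r b with hE2
  set cΘ : ℝ := (Fintype.card (Theta K 𝔪) : ℝ) with hcΘ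
  have hE1nn : 0 ≤ E1 := Finset.sum_nonneg fun θ _ => tsum_nonneg fun b => Dsg_nonneg K _ b
  have hE2nn : 0 ≤ E2 := Finset.sum_nonneg fun r _ => tsum_nonneg fun b => Dsg_nonneg K _ b
  have hcΘnn : 0 ≤ cΘ := Nat.cast_nonneg _
  set D : ℝ := (cΘ * E2 + nJ * n𝔪 * E1) / n𝔪 with hD
  have hD0 : 0 ≤ D := by
    rw [hD]
    have : 0 ≤ cΘ * E2 + nJ * n𝔪 * E1 := by positivity
    exact div_nonneg this (by linarith)
  refine ⟨nJ * D + (cΘ * A) * nJ * Real.log nJ, fun s hs1 hs2 => ?_⟩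
  have hX := hasSum_rayZeta 𝔪 hJ0 hs1
  set X := ∑' a, (raySet K 𝔪 J).indicator (G K s) a with hXdef
  set ζ := ∑' I : rayClass K 𝔪 J, (Ideal.absNorm (I.1 : Ideal (𝓞 K)) : ℝ) ^ (-s) with hζ
  have hXζ : X = ζ * nJ ^ (-s) := by
    rw [← hX.tsum_eq, tsum_mul_right]
  have hdec : X = ∑ θ : Theta K 𝔪,
      ∑' b, (Λ : Set (𝓞 K)).indicator (fun b => Gs K θ.1.2 s (b + y θ)) b := by
    have hsum : ∀ θ ∈ (Finset.univ : Finset (Theta K 𝔪)),
        Summable (fun β : 𝓞 K => (resSet K 𝔪 J θ.1.1).indicator (Gs K θ.1.2 s) β) :=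
      fun θ _ => (summable_Gs K θ.1.2 hs1).indicator _
    rw [hXdef, tsum_congr (indicator_raySet_eq K 𝔪 J s)]
    rw [Summable.tsum_finsetSum
      (f := fun (θ : Theta K 𝔪) (β : 𝓞 K) => (resSet K 𝔪 J θ.1.1).indicator (Gs K θ.1.2 s) β)
      hsum]
    refine Finset.sum_congr rfl fun θ _ => ?_
    rw [← hymk θ]
    exact tsum_residue_eq K 𝔪 J θ.1.2 s (hyJ θ)
  have hW : ∀ θ : Theta K 𝔪,
      |∑' b, (Λ : Set (𝓞 K)).indicator (fun b => Gs K θ.1.2 s (b + y θ)) b -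
        ∑' b, (Λ : Set (𝓞 K)).indicator (Gs K θ.1.2 s) b| ≤ ∑' b, Dsg K (y θ) b :=
    fun θ => abs_shift_sub_le K Λ θ.1.2 (y θ) hs1 hs2
  have hV : ∀ θ : Theta K 𝔪,
      |∑' b, Gs K θ.1.2 s b -
        nJ * n𝔪 * ∑' b, (Λ : Set (𝓞 K)).indicator (Gs K θ.1.2 s) b| ≤ E2 := by
    intro θ
    have h := abs_tsum_sub_card_mul_tsum_indicator_le Λ.toAddSubgroup R hR (Gs K θ.1.2 s)
      (summable_Gs K θ.1.2 hs1) (Dsg K)
      (fun r b => abs_Gs_sub_le_Dsg K θ.1.2 r b hs1.le hs2) (summable_Dsg K)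
    rw [hcard] at h
    exact h
  have hmain : |Psi K 𝔪 s - nJ * n𝔪 * X| ≤ cΘ * E2 + nJ * n𝔪 * E1 := by
    rw [Psi_eq_sum, hdec, Finset.mul_sum, ← Finset.sum_sub_distrib]
    refine (Finset.abs_sum_le_sum_abs _ _).trans ?_
    have e : cΘ * E2 + nJ * n𝔪 * E1 =
        ∑ θ : Theta K 𝔪, (E2 + nJ * n𝔪 * ∑' b, Dsg K (y θ) b) := by
      rw [Finset.sum_add_distrib, Finset.sum_const, Finset.card_univ, nsmul_eq_mul,
        ← Finset.mul_sum]
    rw [e]
    refine Finset.sum_le_sum fun θ _ => ?_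
    have h1 := hV θ
    have h2 := hW θ
    have hc : 0 ≤ nJ * n𝔪 := by positivity
    have h3 : ∑' b, Gs K θ.1.2 s b -
        nJ * n𝔪 * ∑' b, (Λ : Set (𝓞 K)).indicator (fun b => Gs K θ.1.2 s (b + y θ)) b =
        (∑' b, Gs K θ.1.2 s b -
          nJ * n𝔪 * ∑' b, (Λ : Set (𝓞 K)).indicator (Gs K θ.1.2 s) b) -
        nJ * n𝔪 * (∑' b, (Λ : Set (𝓞 K)).indicator (fun b => Gs K θ.1.2 s (b + y θ)) b -
          ∑' b, (Λ : Set (𝓞 K)).indicator (Gs K θ.1.2 s) b) := by ring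
    rw [h3]
    refine (abs_sub _ _).trans ?_
    rw [abs_mul, abs_of_nonneg hc]
    have := mul_le_mul_of_nonneg_left h2 hc
    linarith
  have hn𝔪pos : 0 < n𝔪 := by linarith
  have hDle : |Psi K 𝔪 s / n𝔪 - nJ * (ζ * nJ ^ (-s))| ≤ D := by
    rw [← hXζ]
    have e : Psi K 𝔪 s / n𝔪 - nJ * X = (Psi K 𝔪 s - nJ * n𝔪 * X) / n𝔪 := by
      field_simp
    rw [e, abs_div, abs_of_pos hn𝔪pos, hD]
    exact div_le_div_of_nonneg_right hmain hn𝔪pos.le
  have hPsi0 : 0 ≤ Psi K 𝔪 s := Psi_nonneg K 𝔪 s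
  have hZ1 : 0 ≤ Psi K 𝔪 s / n𝔪 := div_nonneg hPsi0 hn𝔪pos.le
  have hPsile : Psi K 𝔪 s ≤ cΘ * A / (s - 1) := by
    rw [Psi_eq_sum]
    have h1 : ∀ θ : Theta K 𝔪, ∑' b, Gs K θ.1.2 s b ≤ A / (s - 1) := by
      intro θ
      exact ((summable_Gs K θ.1.2 hs1).tsum_le_tsum (Gs_le_G K θ.1.2 s)
        (summable_G K hs1)).trans (hA s hs1 hs2)
    calc ∑ θ : Theta K 𝔪, ∑' b, Gs K θ.1.2 s b
        ≤ ∑ θ : Theta K 𝔪, A / (s - 1) := Finset.sum_le_sum fun θ _ => h1 θ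
      _ = cΘ * A / (s - 1) := by
        rw [Finset.sum_const, Finset.card_univ, nsmul_eq_mul, hcΘ]; ring
  have hZ1le : Psi K 𝔪 s / n𝔪 ≤ cΘ * A / (s - 1) :=
    (div_le_self hPsi0 hn𝔪).trans hPsile
  exact final_real_aux hnJ hs1 hs2 hZ1 hZ1le (mul_nonneg hcΘnn hA0) hD0 hDle

/-- **Ray class zeta functions differ by bounded amounts.** -/
theorem rayZeta_sub_bounded (𝔪 J J' : Ideal (𝓞 K)) (h𝔪 : 𝔪 ≠ ⊥) (hJ0 : J ≠ ⊥)
    (hJ : IsCoprime J 𝔪) (hJ0' : J' ≠ ⊥) (hJ' : IsCoprime J' 𝔪) :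
    ∃ B : ℝ, ∀ s : ℝ, 1 < s → s ≤ 2 →
      |(∑' I : rayClass K 𝔪 J, (Ideal.absNorm (I.1 : Ideal (𝓞 K)) : ℝ) ^ (-s))
        - (∑' I : rayClass K 𝔪 J', (Ideal.absNorm (I.1 : Ideal (𝓞 K)) : ℝ) ^ (-s))| ≤ B := by
  obtain ⟨B, hB⟩ := rayZeta_sub_Psi_bounded K 𝔪 J h𝔪 hJ0 hJ
  obtain ⟨B', hB'⟩ := rayZeta_sub_Psi_bounded K 𝔪 J' h𝔪 hJ0' hJ'
  refine ⟨B + B', fun s hs1 hs2 => ?_⟩
  have h1 := hB s hs1 hs2
  have h2 := hB' s hs1 hs2
  have h3 := abs_sub_le
    (∑' I : rayClass K 𝔪 J, (Ideal.absNorm (I.1 : Ideal (𝓞 K)) : ℝ) ^ (-s))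
    (Psi K 𝔪 s / (Ideal.absNorm 𝔪 : ℝ))
    (∑' I : rayClass K 𝔪 J', (Ideal.absNorm (I.1 : Ideal (𝓞 K)) : ℝ) ^ (-s))
  rw [abs_sub_comm] at h2
  linarith

end Main

end

end Fermat.Agent.CFT.Analytic.RayZeta
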