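import Mathlib
import Fermat.Agent.CFT.Analytic.RayZeta

/-!
# The (narrow) ray class group modulo an ideal

For a number field `K` and a nonzero ideal `𝔪` of `𝓞 K`, we define the monoid of nonzero ideals
coprime to `𝔪`, the ray congruence on it (`I ∼ J` iff `(α) I = (β) J` with
`α, β ≡ 1 mod* 𝔪∞`), and show that the quotient is a finite monoid in which every element is
invertible.  The classes are identified with the sets `rayClass K 𝔪 J` of `RayZeta`.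
-/

set_option autoImplicit false
set_option linter.unusedSectionVars false

namespace Fermat.Agent.CFT.Analytic.RayClass

open NumberField Fermat.Agent.S14.ClassZeta Fermat.Agent.CFT.Analytic.RayZeta

open scoped nonZeroDivisors Classical

noncomputable section

variable (K : Type*) [Field K] [NumberField K]

/-! ## Making an element `≡ 1 mod* 𝔪∞` -/

/-- If `α` is nonzero and prime to `𝔪`, some multiple `γ α` is `≡ 1 mod* 𝔪∞`. -/
lemma exists_rayOne_mul {𝔪 : Ideal (𝓞 K)} (h𝔪 : 𝔪 ≠ ⊥) {α : 𝓞 K} (hα : α ≠ 0)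
    (hcop : IsCoprime (Ideal.span {α}) 𝔪) : ∃ γ : 𝓞 K, RayOne K 𝔪 (γ * α) := by
  rw [Ideal.isCoprime_iff_exists] at hcop
  obtain ⟨i, hi, m, hm, him⟩ := hcop
  obtain ⟨γ₀, rfl⟩ := Ideal.mem_span_singleton'.mp hi
  set n : ℕ := Ideal.absNorm 𝔪 with hn
  have hn0 : n ≠ 0 := by
    rw [hn, Ne, Ideal.absNorm_eq_zero_iff]; exact h𝔪
  have hnmem : (n : 𝓞 K) ∈ 𝔪 := Ideal.absNorm_mem 𝔪
  have : Fintype (K →+* ℝ) := Fintype.ofFinite _
  obtain ⟨k₀, hk₀⟩ := exists_nat_gt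
    (∑ σ : K →+* ℝ, |σ (γ₀ : K) * σ (α : K)| / (σ (α : K)) ^ 2)
  have hpos : ∀ k : ℕ, k₀ ≤ k → ∀ σ : K →+* ℝ,
      0 < σ (((γ₀ + (k : 𝓞 K) * (n : 𝓞 K) * α) * α : 𝓞 K) : K) := by
    intro k hk σ
    have hσα : σ (α : K) ≠ 0 := (map_ne_zero σ).mpr (coe_ne_zero K hα)
    have hsq : 0 < σ (α : K) ^ 2 := by positivity
    have e : σ (((γ₀ + (k : 𝓞 K) * (n : 𝓞 K) * α) * α : 𝓞 K) : K) =
        σ (γ₀ : K) * σ (α : K) + (k : ℝ) * (n : ℝ) * σ (α : K) ^ 2 := by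
      push_cast
      simp only [map_add, map_mul, map_natCast]
      ring
    rw [e]
    have h1 : |σ (γ₀ : K) * σ (α : K)| / σ (α : K) ^ 2 ≤
        ∑ σ : K →+* ℝ, |σ (γ₀ : K) * σ (α : K)| / (σ (α : K)) ^ 2 :=
      Finset.single_le_sum
        (f := fun σ : K →+* ℝ => |σ (γ₀ : K) * σ (α : K)| / (σ (α : K)) ^ 2)
        (fun σ _ => by positivity) (Finset.mem_univ σ)
    have hk' : (k₀ : ℝ) ≤ k := by exact_mod_cast hk
    have h2 : |σ (γ₀ : K) * σ (α : K)| / σ (α : K) ^ 2 < k := by linarith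
    have h3 : |σ (γ₀ : K) * σ (α : K)| < k * σ (α : K) ^ 2 := by
      rwa [div_lt_iff₀ hsq] at h2
    have h4 : (1 : ℝ) ≤ n := by exact_mod_cast Nat.one_le_iff_ne_zero.mpr hn0
    have h5 : (k : ℝ) * σ (α : K) ^ 2 ≤ k * n * σ (α : K) ^ 2 := by
      have h50 : 0 ≤ (k : ℝ) * σ (α : K) ^ 2 := by positivity
      nlinarith
    have h6 := neg_abs_le (σ (γ₀ : K) * σ (α : K))
    linarith
  have hcong : ∀ k : ℕ, (γ₀ + (k : 𝓞 K) * (n : 𝓞 K) * α) * α - 1 ∈ 𝔪 := by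
    intro k
    have e : (γ₀ + (k : 𝓞 K) * (n : 𝓞 K) * α) * α - 1 = ((k : 𝓞 K) * α * α) * (n : 𝓞 K) - m := by
      linear_combination him
    rw [e]
    exact 𝔪.sub_mem (𝔪.mul_mem_left _ hnmem) hm
  by_cases h0 : γ₀ + (k₀ : 𝓞 K) * (n : 𝓞 K) * α = 0
  · refine ⟨γ₀ + ((k₀ + 1 : ℕ) : 𝓞 K) * (n : 𝓞 K) * α, ?_, hcong _, hpos _ (Nat.le_succ _)⟩
    have e : γ₀ + ((k₀ + 1 : ℕ) : 𝓞 K) * (n : 𝓞 K) * α = (n : 𝓞 K) * α := by
      push_cast
      linear_combination h0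
    rw [e]
    exact mul_ne_zero (mul_ne_zero (Nat.cast_ne_zero.mpr hn0) hα) hα
  · exact ⟨γ₀ + (k₀ : 𝓞 K) * (n : 𝓞 K) * α, mul_ne_zero h0 hα, hcong _, hpos _ le_rfl⟩

lemma RayOne.isCoprime {𝔪 : Ideal (𝓞 K)} {α : 𝓞 K} (hα : RayOne K 𝔪 α) :
    IsCoprime (Ideal.span {α}) 𝔪 := by
  rw [Ideal.isCoprime_iff_exists]
  refine ⟨α, Ideal.mem_span_singleton_self α, 1 - α, ?_, by ring⟩
  have : 1 - α = -(α - 1) := by ring
  rw [this]
  exact 𝔪.neg_mem hα.2.1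

/-! ## The monoid of ideals prime to `𝔪` and the ray congruence -/

/-- The nonzero ideals coprime to `𝔪`. -/
def coprimeSubmonoid (𝔪 : Ideal (𝓞 K)) : Submonoid (Ideal (𝓞 K)) where
  carrier := {I | I ≠ ⊥ ∧ IsCoprime I 𝔪}
  mul_mem' := by
    rintro I J ⟨hI0, hI⟩ ⟨hJ0, hJ⟩
    exact ⟨mul_ne_zero hI0 hJ0, hI.mul_left hJ⟩
  one_mem' := ⟨one_ne_zero, isCoprime_one_left⟩

lemma mem_coprimeSubmonoid {𝔪 I : Ideal (𝓞 K)} :
    I ∈ coprimeSubmonoid K 𝔪 ↔ I ≠ ⊥ ∧ IsCoprime I 𝔪 := Iff.rfl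

lemma span_mem_coprimeSubmonoid {𝔪 : Ideal (𝓞 K)} {α : 𝓞 K} (hα : RayOne K 𝔪 α) :
    Ideal.span {α} ∈ coprimeSubmonoid K 𝔪 :=
  ⟨by rw [Ne, Ideal.span_singleton_eq_bot]; exact hα.1, RayOne.isCoprime K hα⟩

/-- Ray equivalence of ideals modulo `𝔪`. -/
def RayEquiv (𝔪 : Ideal (𝓞 K)) (I J : Ideal (𝓞 K)) : Prop :=
  ∃ α β : 𝓞 K, RayOne K 𝔪 α ∧ RayOne K 𝔪 β ∧ Ideal.span {α} * I = Ideal.span {β} * J

lemma RayEquiv.refl (𝔪 I : Ideal (𝓞 K)) : RayEquiv K 𝔪 I I :=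
  ⟨1, 1, rayOne_one 𝔪, rayOne_one 𝔪, rfl⟩

variable {K} in
lemma RayEquiv.symm {𝔪 I J : Ideal (𝓞 K)} (h : RayEquiv K 𝔪 I J) : RayEquiv K 𝔪 J I := by
  obtain ⟨α, β, hα, hβ, h⟩ := h
  exact ⟨β, α, hβ, hα, h.symm⟩

variable {K} in
lemma RayEquiv.trans {𝔪 I J L : Ideal (𝓞 K)} (h : RayEquiv K 𝔪 I J) (h' : RayEquiv K 𝔪 J L) :
    RayEquiv K 𝔪 I L := by
  obtain ⟨α, β, hα, hβ, h⟩ := h
  obtain ⟨γ, δ, hγ, hδ, h'⟩ := h'
  refine ⟨γ * α, β * δ, hγ.mul hα, hβ.mul hδ, ?_⟩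
  rw [← Ideal.span_singleton_mul_span_singleton, ← Ideal.span_singleton_mul_span_singleton,
    mul_assoc, h, mul_left_comm, h', mul_assoc]

variable {K} in
lemma RayEquiv.mul {𝔪 I J I' J' : Ideal (𝓞 K)} (h : RayEquiv K 𝔪 I J)
    (h' : RayEquiv K 𝔪 I' J') : RayEquiv K 𝔪 (I * I') (J * J') := by
  obtain ⟨α, β, hα, hβ, h⟩ := h
  obtain ⟨γ, δ, hγ, hδ, h'⟩ := h'
  refine ⟨α * γ, β * δ, hα.mul hγ, hβ.mul hδ, ?_⟩
  rw [← Ideal.span_singleton_mul_span_singleton, ← Ideal.span_singleton_mul_span_singleton,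
    mul_mul_mul_comm, h, h', mul_mul_mul_comm]

/-- The ray congruence on the monoid of ideals prime to `𝔪`. -/
def rayCon (𝔪 : Ideal (𝓞 K)) : Con (coprimeSubmonoid K 𝔪) where
  r I J := RayEquiv K 𝔪 I.1 J.1
  iseqv := ⟨fun I => RayEquiv.refl K 𝔪 I.1, fun h => h.symm, fun h h' => h.trans h'⟩
  mul' := fun h h' => h.mul h'

/-- The (narrow) ray class group modulo `𝔪`, as a commutative monoid. -/
abbrev RayClassGroup (𝔪 : Ideal (𝓞 K)) : Type _ := (rayCon K 𝔪).Quotient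

lemma rayCon_mk_eq {𝔪 : Ideal (𝓞 K)} {I J : coprimeSubmonoid K 𝔪} :
    ((I : (rayCon K 𝔪).Quotient) = J) ↔ RayEquiv K 𝔪 I.1 J.1 :=
  (rayCon K 𝔪).eq

/-! ## Inverses -/

/-- Every ideal prime to `𝔪` has an inverse in the ray class monoid. -/
lemma exists_inverse {𝔪 : Ideal (𝓞 K)} (h𝔪 : 𝔪 ≠ ⊥) {I : Ideal (𝓞 K)}
    (hI : I ∈ coprimeSubmonoid K 𝔪) :
    ∃ J : Ideal (𝓞 K), J ∈ coprimeSubmonoid K 𝔪 ∧
      ∃ α : 𝓞 K, RayOne K 𝔪 α ∧ I * J = Ideal.span {α} := by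
  obtain ⟨hI0, hIcop⟩ := hI
  -- a nonzero `a ∈ I` with `(a) = I * L`, `L` prime to `𝔪`
  obtain ⟨a, L, ha0, haL, hL⟩ : ∃ (a : 𝓞 K) (L : Ideal (𝓞 K)), a ≠ 0 ∧
      Ideal.span {a} = I * L ∧ IsCoprime L 𝔪 := by
    have hle : I * 𝔪 ≤ I := Ideal.mul_le_left
    have hne : I * 𝔪 ≠ 0 := mul_ne_zero hI0 h𝔪
    obtain ⟨a, ha⟩ := IsDedekindDomain.exists_sup_span_eq hle hne
    have haI : a ∈ I := by
      rw [← ha]
      exact Ideal.mem_sup_right (Ideal.mem_span_singleton_self a)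
    obtain ⟨L, hL⟩ := Ideal.dvd_span_singleton.mpr haI
    by_cases ha0 : a = 0
    · -- then `𝔪 = ⊤`
      subst ha0
      have h1 : I * 𝔪 = I * ⊤ := by
        rw [Ideal.mul_top]
        simpa using ha
      have h𝔪top : 𝔪 = ⊤ := mul_left_cancel₀ hI0 h1
      obtain ⟨b, hbI, hb0⟩ := Submodule.exists_mem_ne_zero_of_ne_bot hI0
      obtain ⟨L', hL'⟩ := Ideal.dvd_span_singleton.mpr hbI
      refine ⟨b, L', hb0, hL', ?_⟩
      rw [h𝔪top, Ideal.isCoprime_iff_sup_eq]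
      exact sup_top_eq _
    · refine ⟨a, L, ha0, hL, ?_⟩
      rw [hL, ← Ideal.mul_sup] at ha
      have h2 : I * (𝔪 ⊔ L) = I * ⊤ := by rw [ha, Ideal.mul_top]
      have h3 : 𝔪 ⊔ L = ⊤ := mul_left_cancel₀ hI0 h2
      rw [Ideal.isCoprime_iff_sup_eq, sup_comm]
      exact h3
  have hL0 : L ≠ ⊥ := by
    rintro rfl
    rw [Ideal.mul_bot, Ideal.span_singleton_eq_bot] at haL
    exact ha0 haL
  have hacop : IsCoprime (Ideal.span {a}) 𝔪 := by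
    rw [haL]
    exact hIcop.mul_left hL
  obtain ⟨γ, hγ⟩ := exists_rayOne_mul K h𝔪 ha0 hacop
  have hγ0 : γ ≠ 0 := left_ne_zero_of_mul hγ.1
  have hγcop : IsCoprime (Ideal.span {γ}) 𝔪 := by
    rw [Ideal.isCoprime_iff_exists]
    refine ⟨γ * a, Ideal.mem_span_singleton'.mpr ⟨a, mul_comm _ _⟩, 1 - γ * a, ?_, by ring⟩
    have : 1 - γ * a = -(γ * a - 1) := by ring
    rw [this]
    exact 𝔪.neg_mem hγ.2.1
  have hγI : Ideal.span {γ} ≠ ⊥ := by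
    rw [Ne, Ideal.span_singleton_eq_bot]; exact hγ0
  refine ⟨Ideal.span {γ} * L, ⟨mul_ne_zero hγI hL0, hγcop.mul_left hL⟩, γ * a, hγ, ?_⟩
  rw [← Ideal.span_singleton_mul_span_singleton, haL, mul_left_comm]

/-- Every element of the ray class monoid is invertible. -/
lemma isUnit_rayClass {𝔪 : Ideal (𝓞 K)} (h𝔪 : 𝔪 ≠ ⊥) (q : RayClassGroup K 𝔪) : IsUnit q := by
  induction q using Con.induction_on with
  | H I =>
    obtain ⟨J, hJ, α, hα, hIJ⟩ := exists_inverse K h𝔪 I.2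
    rw [isUnit_iff_exists_inv]
    refine ⟨((⟨J, hJ⟩ : coprimeSubmonoid K 𝔪) : (rayCon K 𝔪).Quotient), ?_⟩
    rw [← Con.coe_mul, ← Con.coe_one, rayCon_mk_eq]
    refine ⟨1, α, rayOne_one 𝔪, hα, ?_⟩
    show Ideal.span {(1 : 𝓞 K)} * (I.1 * J) = Ideal.span {α} * (1 : Ideal (𝓞 K))
    rw [Ideal.span_singleton_one, Ideal.one_eq_top, Ideal.top_mul, Ideal.mul_top, hIJ]

/-! ## Finiteness -/

/-- Elements with the same residue and the same sign pattern generate ray-equivalent ideals. -/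
lemma rayEquiv_span_of_type_eq {𝔪 : Ideal (𝓞 K)} (h𝔪 : 𝔪 ≠ ⊥) {α α' : 𝓞 K} (hα : α ≠ 0)
    (hα' : α' ≠ 0) (hcop : IsCoprime (Ideal.span {α}) 𝔪) (hres : α - α' ∈ 𝔪)
    (hpat : pat K (α : K) = pat K (α' : K)) :
    RayEquiv K 𝔪 (Ideal.span {α}) (Ideal.span {α'}) := by
  obtain ⟨γ, hγ⟩ := exists_rayOne_mul K h𝔪 hα hcop
  have hγ0 : γ ≠ 0 := left_ne_zero_of_mul hγ.1
  have hγ' : RayOne K 𝔪 (γ * α') := by
    refine ⟨mul_ne_zero hγ0 hα', ?_, fun σ => ?_⟩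
    · have e : γ * α' - 1 = (γ * α - 1) - γ * (α - α') := by ring
      rw [e]
      exact 𝔪.sub_mem hγ.2.1 (𝔪.mul_mem_left _ hres)
    · have h1 := hγ.2.2 σ
      have e1 : ((γ * α : 𝓞 K) : K) = (γ : K) * (α : K) := by push_cast; rfl
      have e2 : ((γ * α' : 𝓞 K) : K) = (γ : K) * (α' : K) := by push_cast; rfl
      rw [e1, map_mul] at h1
      rw [e2, map_mul]
      have hb : σ (α' : K) ≠ 0 := (map_ne_zero σ).mpr (coe_ne_zero K hα')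
      have hp : (0 < σ (α : K)) ↔ (0 < σ (α' : K)) := by
        have := congrFun hpat σ
        simp only [pat] at this
        exact Iff.of_eq this
      rcases lt_trichotomy (σ (α : K)) 0 with ha | ha | ha
      · have hc : σ (γ : K) < 0 := by
          by_contra hcon
          have := mul_nonpos_of_nonneg_of_nonpos (not_lt.mp hcon) ha.le
          linarith
        have hb' : σ (α' : K) < 0 := by
          rcases lt_or_gt_of_ne hb with h | h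
          · exact h
          · exact absurd (hp.mpr h) (not_lt.mpr ha.le)
        exact mul_pos_of_neg_of_neg hc hb'
      · rw [ha, mul_zero] at h1
        exact absurd h1 (lt_irrefl _)
      · have hc : 0 < σ (γ : K) := by
          by_contra hcon
          have := mul_nonpos_of_nonpos_of_nonneg (not_lt.mp hcon) ha.le
          linarith
        exact mul_pos hc (hp.mp ha)
  refine ⟨γ * α', γ * α, hγ', hγ, ?_⟩
  rw [Ideal.span_singleton_mul_span_singleton, Ideal.span_singleton_mul_span_singleton,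
    mul_right_comm]

/-- The map from ideals prime to `𝔪` to the class group. -/
def toClassGroupAux (𝔪 : Ideal (𝓞 K)) : coprimeSubmonoid K 𝔪 →* ClassGroup (𝓞 K) :=
  (ClassGroup.mk0 (R := 𝓞 K)).comp
    (Submonoid.inclusion (fun _ hI => mem_nonZeroDivisors_iff_ne_zero.mpr hI.1))

lemma toClassGroupAux_apply (𝔪 : Ideal (𝓞 K)) (I : coprimeSubmonoid K 𝔪) :
    toClassGroupAux K 𝔪 I =
      ClassGroup.mk0 ⟨I.1, mem_nonZeroDivisors_iff_ne_zero.mpr I.2.1⟩ := rfl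

/-- The map from the ray class monoid to the class group. -/
def toClassGroup (𝔪 : Ideal (𝓞 K)) : RayClassGroup K 𝔪 →* ClassGroup (𝓞 K) :=
  (rayCon K 𝔪).lift (toClassGroupAux K 𝔪) (by
    intro I J h
    rw [Con.ker_rel, toClassGroupAux_apply, toClassGroupAux_apply, ClassGroup.mk0_eq_mk0_iff]
    obtain ⟨α, β, hα, hβ, h⟩ := h
    exact ⟨α, β, hα.1, hβ.1, h⟩)

lemma toClassGroup_mk (𝔪 : Ideal (𝓞 K)) (I : coprimeSubmonoid K 𝔪) :
    toClassGroup K 𝔪 (I : (rayCon K 𝔪).Quotient) =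
      ClassGroup.mk0 ⟨I.1, mem_nonZeroDivisors_iff_ne_zero.mpr I.2.1⟩ := rfl

/-- The set of types of nonzero generators of principal ideals in a ray class. -/
def typeSet (𝔪 : Ideal (𝓞 K)) (q : RayClassGroup K 𝔪) :
    Set ((𝓞 K ⧸ 𝔪) × ((K →+* ℝ) → Prop)) :=
  {t | ∃ (α : 𝓞 K) (_ : α ≠ 0) (h : Ideal.span {α} ∈ coprimeSubmonoid K 𝔪),
    ((⟨Ideal.span {α}, h⟩ : coprimeSubmonoid K 𝔪) : (rayCon K 𝔪).Quotient) = q ∧
      (Ideal.Quotient.mk 𝔪 α, pat K (α : K)) = t}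

lemma typeSet_nonempty {𝔪 : Ideal (𝓞 K)} {q : RayClassGroup K 𝔪}
    (hq : toClassGroup K 𝔪 q = 1) : (typeSet K 𝔪 q).Nonempty := by
  induction q using Con.induction_on with
  | H I =>
    rw [toClassGroup_mk, ClassGroup.mk0_eq_one_iff] at hq
    obtain ⟨α, hα⟩ := hq.principal
    have hα' : Ideal.span {α} = I.1 := by
      rw [hα]
    have hα0 : α ≠ 0 := by
      rintro rfl
      apply I.2.1
      rw [← hα']
      simp
    have hmem : Ideal.span {α} ∈ coprimeSubmonoid K 𝔪 := by rw [hα']; exact I.2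
    refine ⟨_, α, hα0, hmem, ?_, rfl⟩
    congr 1
    exact Subtype.ext hα'

lemma eq_of_typeSet_inter {𝔪 : Ideal (𝓞 K)} (h𝔪 : 𝔪 ≠ ⊥) {q q' : RayClassGroup K 𝔪}
    {t : (𝓞 K ⧸ 𝔪) × ((K →+* ℝ) → Prop)} (ht : t ∈ typeSet K 𝔪 q)
    (ht' : t ∈ typeSet K 𝔪 q') : q = q' := by
  obtain ⟨α, hα0, hα, rfl, rfl⟩ := ht
  obtain ⟨α', hα0', hα', rfl, h'⟩ := ht'
  rw [rayCon_mk_eq]
  have h1 : Ideal.Quotient.mk 𝔪 α' = Ideal.Quotient.mk 𝔪 α := congrArg Prod.fst h'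
  have h2 : pat K (α' : K) = pat K (α : K) := congrArg Prod.snd h'
  rw [Ideal.Quotient.eq] at h1
  have h3 : α - α' ∈ 𝔪 := by
    have : α - α' = -(α' - α) := by ring
    rw [this]
    exact 𝔪.neg_mem h1
  exact rayEquiv_span_of_type_eq K h𝔪 hα0 hα0' hα.2 h3 h2.symm

/-- The ray class monoid modulo a nonzero ideal is finite. -/
theorem finite_rayClassGroup {𝔪 : Ideal (𝓞 K)} (h𝔪 : 𝔪 ≠ ⊥) : Finite (RayClassGroup K 𝔪) := by
  have : Finite (𝓞 K ⧸ 𝔪) := Ideal.finiteQuotientOfFreeOfNeBot 𝔪 h𝔪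
  set f : (RayClassGroup K 𝔪)ˣ →* ClassGroup (𝓞 K) :=
    (toClassGroup K 𝔪).comp (Units.coeHom (RayClassGroup K 𝔪)) with hf
  have hker : Finite f.ker := by
    refine Finite.of_injective
      (fun u : f.ker => typeSet K 𝔪 ((u : (RayClassGroup K 𝔪)ˣ) : RayClassGroup K 𝔪)) ?_
    intro u u' huu
    have hu : toClassGroup K 𝔪 ((u : (RayClassGroup K 𝔪)ˣ) : RayClassGroup K 𝔪) = 1 := u.2
    obtain ⟨t, ht⟩ := typeSet_nonempty K hu
    have ht' : t ∈ typeSet K 𝔪 ((u' : (RayClassGroup K 𝔪)ˣ) : RayClassGroup K 𝔪) := by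
      have := huu
      simp only at this
      rw [← this]
      exact ht
    exact Subtype.ext (Units.ext (eq_of_typeSet_inter K h𝔪 ht ht'))
  have hquot : Finite ((RayClassGroup K 𝔪)ˣ ⧸ f.ker) :=
    Finite.of_injective _ (QuotientGroup.kerLift_injective f)
  have hunits : Finite (RayClassGroup K 𝔪)ˣ := Finite.of_subgroup_quotient f.ker
  exact Finite.of_surjective (fun u : (RayClassGroup K 𝔪)ˣ => (u : RayClassGroup K 𝔪))
    (fun q => ⟨(isUnit_rayClass K h𝔪 q).unit, rfl⟩)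

/-! ## Ray classes as the sets `rayClass` -/

lemma mem_rayClass_iff {𝔪 I J : Ideal (𝓞 K)} (hI : I ∈ coprimeSubmonoid K 𝔪)
    {α₀ : 𝓞 K} (hα₀ : RayOne K 𝔪 α₀) (hIJ : I * J = Ideal.span {α₀}) (I' : Ideal (𝓞 K)) :
    I' ∈ rayClass K 𝔪 J ↔ ∃ h : I' ∈ coprimeSubmonoid K 𝔪,
      ((⟨I', h⟩ : coprimeSubmonoid K 𝔪) : (rayCon K 𝔪).Quotient) =
        ((⟨I, hI⟩ : coprimeSubmonoid K 𝔪) : (rayCon K 𝔪).Quotient) := by
  constructor
  · rintro ⟨γ, hγ, hI'J⟩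
    have hI'0 : I' ≠ ⊥ := by
      rintro rfl
      rw [Ideal.bot_mul] at hI'J
      exact hγ.1 (Ideal.span_singleton_eq_bot.mp hI'J.symm)
    have hcop : IsCoprime I' 𝔪 := by
      rw [Ideal.isCoprime_iff_exists]
      have hγI' : γ ∈ I' := by
        have h := Ideal.mem_span_singleton_self γ
        rw [← hI'J] at h
        exact (Ideal.mul_le_left : I' * J ≤ I') h
      refine ⟨γ, hγI', 1 - γ, ?_, by ring⟩
      have : 1 - γ = -(γ - 1) := by ring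
      rw [this]
      exact 𝔪.neg_mem hγ.2.1
    refine ⟨⟨hI'0, hcop⟩, ?_⟩
    rw [rayCon_mk_eq]
    refine ⟨α₀, γ, hα₀, hγ, ?_⟩
    show Ideal.span {α₀} * I' = Ideal.span {γ} * I
    rw [← hIJ, ← hI'J, mul_comm (I * J) I', mul_left_comm, mul_comm I (I' * J)]
  · rintro ⟨h, hq⟩
    rw [rayCon_mk_eq] at hq
    obtain ⟨a, b, ha, hb, hab⟩ := hq
    have hab' : Ideal.span {a} * I' = Ideal.span {b} * I := hab
    have h1 : Ideal.span {a} * (I' * J) = Ideal.span {b * α₀} := by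
      rw [← mul_assoc, hab', mul_assoc, hIJ, Ideal.span_singleton_mul_span_singleton]
    have h2 : b * α₀ ∈ Ideal.span {a} := by
      have h := Ideal.mem_span_singleton_self (b * α₀)
      rw [← h1] at h
      exact (Ideal.mul_le_left : Ideal.span {a} * (I' * J) ≤ Ideal.span {a}) h
    obtain ⟨γ, hγ⟩ := Ideal.mem_span_singleton'.mp h2
    have ha0 : Ideal.span {a} ≠ ⊥ := by
      rw [Ne, Ideal.span_singleton_eq_bot]; exact ha.1
    have h3 : Ideal.span {a} * (I' * J) = Ideal.span {a} * Ideal.span {γ} := by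
      rw [h1, Ideal.span_singleton_mul_span_singleton, ← hγ, mul_comm]
    have h4 : I' * J = Ideal.span {γ} := mul_left_cancel₀ ha0 h3
    refine ⟨γ, ?_, h4⟩
    apply RayOne.of_mul ha
    rw [mul_comm, hγ]
    exact hb.mul hα₀

/-- The fibre of the quotient map over the class of `I` is `rayClass K 𝔪 J` whenever
`I * J = (α₀)` with `α₀ ≡ 1 mod* 𝔪∞`. -/
def fiberEquiv {𝔪 I J : Ideal (𝓞 K)} (hI : I ∈ coprimeSubmonoid K 𝔪)
    {α₀ : 𝓞 K} (hα₀ : RayOne K 𝔪 α₀) (hIJ : I * J = Ideal.span {α₀}) :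
    {I' : coprimeSubmonoid K 𝔪 // (I' : (rayCon K 𝔪).Quotient) =
        ((⟨I, hI⟩ : coprimeSubmonoid K 𝔪) : (rayCon K 𝔪).Quotient)} ≃ rayClass K 𝔪 J where
  toFun I' := ⟨I'.1.1, (mem_rayClass_iff K hI hα₀ hIJ _).mpr ⟨I'.1.2, I'.2⟩⟩
  invFun x := ⟨⟨x.1, ((mem_rayClass_iff K hI hα₀ hIJ _).mp x.2).choose⟩,
    ((mem_rayClass_iff K hI hα₀ hIJ _).mp x.2).choose_spec⟩
  left_inv _ := Subtype.ext (Subtype.ext rfl)
  right_inv _ := Subtype.ext rfl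

lemma fiberEquiv_apply {𝔪 I J : Ideal (𝓞 K)} (hI : I ∈ coprimeSubmonoid K 𝔪)
    {α₀ : 𝓞 K} (hα₀ : RayOne K 𝔪 α₀) (hIJ : I * J = Ideal.span {α₀})
    (I' : {I' : coprimeSubmonoid K 𝔪 // (I' : (rayCon K 𝔪).Quotient) =
        ((⟨I, hI⟩ : coprimeSubmonoid K 𝔪) : (rayCon K 𝔪).Quotient)}) :
    ((fiberEquiv K hI hα₀ hIJ I' : rayClass K 𝔪 J) : Ideal (𝓞 K)) = I'.1.1 := rfl

end

end Fermat.Agent.CFT.Analytic.RayClass
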