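import Mathlib
import Fermat.Agent.CFT.Analytic.RayClass
import Fermat.Agent.S14.Analytic.PrimeSums

/-!
# L-series of nontrivial ray class characters are bounded near `s = 1`

Let `χ` be a character of the monoid of ideals prime to `𝔪` which is trivial on the principal
ideals generated by elements `≡ 1 mod* 𝔪∞` (a ray class character), bounded by `1`, and
nontrivial.  Then `L(s, χ) = ∑ χ(I) N(I)^(-s)` is bounded on `(1, 2]`.
-/

set_option autoImplicit false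
set_option linter.unusedSectionVars false

namespace Fermat.Agent.CFT.Analytic.RayL

open NumberField Fermat.Agent.S14.ClassZeta Fermat.Agent.CFT.Analytic.RayZeta
  Fermat.Agent.CFT.Analytic.RayClass

open scoped nonZeroDivisors Classical

noncomputable section

/-- Fiberwise decomposition of an infinite sum over a finite set of fibers. -/
lemma tsum_fiber_eq_sum {α γ : Type*} [Fintype γ] (g : α → γ) (F : α → ℂ) (hF : Summable F) :
    ∑' a, F a = ∑ c, ∑' a : {a // g a = c}, F a := by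
  have h : Summable (F ∘ Equiv.sigmaFiberEquiv g) :=
    (Equiv.sigmaFiberEquiv g).summable_iff.mpr hF
  rw [← (Equiv.sigmaFiberEquiv g).tsum_eq]
  have h2 := h.tsum_sigma
  simp only [Function.comp_apply] at h2
  rw [h2, tsum_fintype]
  rfl

variable (K : Type*) [Field K] [NumberField K]

/-- Summability of `N(I)^(-s)` over the ideals prime to `𝔪`. -/
lemma summable_coprime (𝔪 : Ideal (𝓞 K)) {s : ℝ} (hs : 1 < s) :
    Summable fun I : coprimeSubmonoid K 𝔪 => (Ideal.absNorm (I.1 : Ideal (𝓞 K)) : ℝ) ^ (-s) :=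
  (Fermat.Agent.S14.Analytic.PrimeSums.summable_term K hs).comp_injective
    Subtype.val_injective

variable {K}

/-- A ray class character is constant on ray classes. -/
lemma char_eq_of_rayEquiv {𝔪 : Ideal (𝓞 K)} (χ : coprimeSubmonoid K 𝔪 →* ℂ)
    (hray : ∀ (α : 𝓞 K) (hα : RayOne K 𝔪 α),
      χ ⟨Ideal.span {α}, span_mem_coprimeSubmonoid K hα⟩ = 1)
    {I J : coprimeSubmonoid K 𝔪} (h : RayEquiv K 𝔪 I.1 J.1) : χ I = χ J := by
  obtain ⟨α, β, hα, hβ, hαβ⟩ := h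
  have e : (⟨Ideal.span {α}, span_mem_coprimeSubmonoid K hα⟩ : coprimeSubmonoid K 𝔪) * I =
      (⟨Ideal.span {β}, span_mem_coprimeSubmonoid K hβ⟩ : coprimeSubmonoid K 𝔪) * J :=
    Subtype.ext hαβ
  have h2 := congrArg χ e
  rw [map_mul, map_mul, hray α hα, hray β hβ, one_mul, one_mul] at h2
  exact h2

/-- The character induced on the ray class monoid. -/
def charQ {𝔪 : Ideal (𝓞 K)} (χ : coprimeSubmonoid K 𝔪 →* ℂ)
    (hray : ∀ (α : 𝓞 K) (hα : RayOne K 𝔪 α),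
      χ ⟨Ideal.span {α}, span_mem_coprimeSubmonoid K hα⟩ = 1) :
    RayClassGroup K 𝔪 →* ℂ :=
  (rayCon K 𝔪).lift χ (fun _ _ h => char_eq_of_rayEquiv χ hray h)

lemma charQ_mk {𝔪 : Ideal (𝓞 K)} (χ : coprimeSubmonoid K 𝔪 →* ℂ)
    (hray : ∀ (α : 𝓞 K) (hα : RayOne K 𝔪 α),
      χ ⟨Ideal.span {α}, span_mem_coprimeSubmonoid K hα⟩ = 1) (I : coprimeSubmonoid K 𝔪) :
    charQ χ hray (I : (rayCon K 𝔪).Quotient) = χ I := rfl

/-- Orthogonality: a nontrivial character of the ray class monoid sums to zero. -/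
lemma sum_charQ_eq_zero {𝔪 : Ideal (𝓞 K)} (h𝔪 : 𝔪 ≠ ⊥) [Fintype (RayClassGroup K 𝔪)]
    (ψ : RayClassGroup K 𝔪 →* ℂ) {q₁ : RayClassGroup K 𝔪} (hq₁ : ψ q₁ ≠ 1) :
    ∑ q : RayClassGroup K 𝔪, ψ q = 0 := by
  set u := (isUnit_rayClass K h𝔪 q₁).unit with hu
  have hu' : (u : RayClassGroup K 𝔪) = q₁ := IsUnit.unit_spec _
  have h1 : ∑ q : RayClassGroup K 𝔪, ψ q = ∑ q : RayClassGroup K 𝔪, ψ (q₁ * q) := by
    symm
    refine Fintype.sum_equiv (Units.mulLeft u) _ _ fun q => ?_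
    rw [Units.mulLeft_apply, hu']
  have h2 : ∑ q : RayClassGroup K 𝔪, ψ (q₁ * q) = ψ q₁ * ∑ q : RayClassGroup K 𝔪, ψ q := by
    rw [Finset.mul_sum]
    exact Finset.sum_congr rfl fun q _ => map_mul ψ q₁ q
  have h3 : (1 - ψ q₁) * ∑ q : RayClassGroup K 𝔪, ψ q = 0 := by
    rw [sub_mul, one_mul, ← h2, ← h1, sub_self]
  rcases mul_eq_zero.mp h3 with h | h
  · exact absurd (sub_eq_zero.mp h).symm hq₁
  · exact h

/-- The sum of `χ(I) N(I)^(-s)` over a ray class. -/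
lemma tsum_fiber {𝔪 : Ideal (𝓞 K)} (χ : coprimeSubmonoid K 𝔪 →* ℂ)
    (hray : ∀ (α : 𝓞 K) (hα : RayOne K 𝔪 α),
      χ ⟨Ideal.span {α}, span_mem_coprimeSubmonoid K hα⟩ = 1)
    (I : coprimeSubmonoid K 𝔪) {J : Ideal (𝓞 K)} {α₀ : 𝓞 K} (hα₀ : RayOne K 𝔪 α₀)
    (hIJ : I.1 * J = Ideal.span {α₀}) (s : ℝ) (q : RayClassGroup K 𝔪)
    (hq : (I : (rayCon K 𝔪).Quotient) = q) :
    ∑' I' : {I' : coprimeSubmonoid K 𝔪 // (I' : (rayCon K 𝔪).Quotient) = q},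
        χ I'.1 * (((Ideal.absNorm (I'.1.1 : Ideal (𝓞 K)) : ℝ) ^ (-s) : ℝ) : ℂ) =
      χ I * ((∑' x : rayClass K 𝔪 J, (Ideal.absNorm (x.1 : Ideal (𝓞 K)) : ℝ) ^ (-s) : ℝ) : ℂ) := by
  subst hq
  have h1 : ∀ I' : {I' : coprimeSubmonoid K 𝔪 // (I' : (rayCon K 𝔪).Quotient) =
      (I : (rayCon K 𝔪).Quotient)}, χ I'.1 = χ I := by
    intro I'
    rw [← charQ_mk χ hray I'.1, I'.2, charQ_mk]
  rw [tsum_congr fun I' => by rw [h1 I'], tsum_mul_left, Complex.ofReal_tsum]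
  congr 1
  have h2 := (fiberEquiv K I.2 hα₀ hIJ).tsum_eq
    (fun x : rayClass K 𝔪 J => (((Ideal.absNorm (x.1 : Ideal (𝓞 K)) : ℝ) ^ (-s) : ℝ) : ℂ))
  rw [← h2]
  rfl

variable (K) in
/-- **Boundedness of `L(s, χ)` for a nontrivial ray class character `χ`.** -/
theorem norm_rayL_le {𝔪 : Ideal (𝓞 K)} (h𝔪 : 𝔪 ≠ ⊥) (χ : coprimeSubmonoid K 𝔪 →* ℂ)
    (hnorm : ∀ I, ‖χ I‖ ≤ 1)
    (hray : ∀ (α : 𝓞 K) (hα : RayOne K 𝔪 α),
      χ ⟨Ideal.span {α}, span_mem_coprimeSubmonoid K hα⟩ = 1)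
    (hne : ∃ I, χ I ≠ 1) :
    ∃ B : ℝ, ∀ s : ℝ, 1 < s → s ≤ 2 →
      ‖∑' I : coprimeSubmonoid K 𝔪,
        χ I * (((Ideal.absNorm (I.1 : Ideal (𝓞 K)) : ℝ) ^ (-s) : ℝ) : ℂ)‖ ≤ B := by
  have hfin : Finite (RayClassGroup K 𝔪) := finite_rayClassGroup K h𝔪
  have : Fintype (RayClassGroup K 𝔪) := Fintype.ofFinite _
  -- representatives and inverses
  have hrep : ∀ q : RayClassGroup K 𝔪, ∃ I : coprimeSubmonoid K 𝔪,
      (I : (rayCon K 𝔪).Quotient) = q := fun q => Con.induction_on q fun I => ⟨I, rfl⟩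
  choose rep hrepq using hrep
  have hinv : ∀ q : RayClassGroup K 𝔪, ∃ J : Ideal (𝓞 K), J ∈ coprimeSubmonoid K 𝔪 ∧
      ∃ α : 𝓞 K, RayOne K 𝔪 α ∧ (rep q).1 * J = Ideal.span {α} :=
    fun q => exists_inverse K h𝔪 (rep q).2
  choose J hJmem α₀ hα₀ hIJ using hinv
  have hbd : ∀ q : RayClassGroup K 𝔪, ∃ B : ℝ, ∀ s : ℝ, 1 < s → s ≤ 2 →
      |(∑' x : rayClass K 𝔪 (J q), (Ideal.absNorm (x.1 : Ideal (𝓞 K)) : ℝ) ^ (-s))
        - Psi K 𝔪 s / (Ideal.absNorm 𝔪 : ℝ)| ≤ B :=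
    fun q => rayZeta_sub_Psi_bounded K 𝔪 (J q) h𝔪 (hJmem q).1 (hJmem q).2
  choose B hB using hbd
  obtain ⟨I₁, hI₁⟩ := hne
  have hsum0 : ∑ q : RayClassGroup K 𝔪, charQ χ hray q = 0 :=
    sum_charQ_eq_zero h𝔪 (charQ χ hray) (q₁ := (I₁ : (rayCon K 𝔪).Quotient))
      (by rw [charQ_mk]; exact hI₁)
  refine ⟨∑ q : RayClassGroup K 𝔪, B q, fun s hs1 hs2 => ?_⟩
  -- summability
  have hF : Summable fun I : coprimeSubmonoid K 𝔪 =>
      χ I * (((Ideal.absNorm (I.1 : Ideal (𝓞 K)) : ℝ) ^ (-s) : ℝ) : ℂ) := by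
    refine Summable.of_norm_bounded (summable_coprime K 𝔪 hs1) fun I => ?_
    rw [norm_mul, Complex.norm_real, Real.norm_of_nonneg (Real.rpow_nonneg (Nat.cast_nonneg _) _)]
    have h0 : 0 ≤ (Ideal.absNorm (I.1 : Ideal (𝓞 K)) : ℝ) ^ (-s) :=
      Real.rpow_nonneg (Nat.cast_nonneg _) _
    calc ‖χ I‖ * (Ideal.absNorm (I.1 : Ideal (𝓞 K)) : ℝ) ^ (-s)
        ≤ 1 * (Ideal.absNorm (I.1 : Ideal (𝓞 K)) : ℝ) ^ (-s) :=
          mul_le_mul_of_nonneg_right (hnorm I) h0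
      _ = _ := one_mul _
  rw [tsum_fiber_eq_sum (fun I : coprimeSubmonoid K 𝔪 => (I : (rayCon K 𝔪).Quotient)) _ hF]
  set P : ℝ := Psi K 𝔪 s / (Ideal.absNorm 𝔪 : ℝ) with hP
  have hterm : ∀ q : RayClassGroup K 𝔪,
      ∑' I' : {I' : coprimeSubmonoid K 𝔪 // (I' : (rayCon K 𝔪).Quotient) = q},
        χ I'.1 * (((Ideal.absNorm (I'.1.1 : Ideal (𝓞 K)) : ℝ) ^ (-s) : ℝ) : ℂ) =
      charQ χ hray q *
        ((∑' x : rayClass K 𝔪 (J q), (Ideal.absNorm (x.1 : Ideal (𝓞 K)) : ℝ) ^ (-s) : ℝ) : ℂ) := by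
    intro q
    rw [tsum_fiber χ hray (rep q) (hα₀ q) (hIJ q) s q (hrepq q), ← charQ_mk χ hray (rep q),
      hrepq q]
  rw [Finset.sum_congr rfl fun q _ => hterm q]
  have hsplit : ∑ q : RayClassGroup K 𝔪, charQ χ hray q *
      ((∑' x : rayClass K 𝔪 (J q), (Ideal.absNorm (x.1 : Ideal (𝓞 K)) : ℝ) ^ (-s) : ℝ) : ℂ) =
      ∑ q : RayClassGroup K 𝔪, charQ χ hray q *
        (((∑' x : rayClass K 𝔪 (J q), (Ideal.absNorm (x.1 : Ideal (𝓞 K)) : ℝ) ^ (-s)) - P : ℝ)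
          : ℂ) := by
    have e : ∀ q : RayClassGroup K 𝔪, charQ χ hray q *
        ((∑' x : rayClass K 𝔪 (J q), (Ideal.absNorm (x.1 : Ideal (𝓞 K)) : ℝ) ^ (-s) : ℝ) : ℂ) =
        charQ χ hray q *
        (((∑' x : rayClass K 𝔪 (J q), (Ideal.absNorm (x.1 : Ideal (𝓞 K)) : ℝ) ^ (-s)) - P : ℝ)
          : ℂ) + charQ χ hray q * (P : ℂ) := by
      intro q
      push_cast
      ring
    rw [Finset.sum_congr rfl fun q _ => e q, Finset.sum_add_distrib, ← Finset.sum_mul, hsum0,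
      zero_mul, add_zero]
  rw [hsplit]
  refine (norm_sum_le _ _).trans (Finset.sum_le_sum fun q _ => ?_)
  rw [norm_mul, Complex.norm_real, Real.norm_eq_abs]
  have hq1 : ‖charQ χ hray q‖ ≤ 1 := by
    rw [← hrepq q, charQ_mk]
    exact hnorm _
  calc ‖charQ χ hray q‖ *
        |(∑' x : rayClass K 𝔪 (J q), (Ideal.absNorm (x.1 : Ideal (𝓞 K)) : ℝ) ^ (-s)) - P|
      ≤ 1 * B q := mul_le_mul hq1 (hB q s hs1 hs2) (abs_nonneg _) zero_le_one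
    _ = B q := one_mul _

end

end Fermat.Agent.CFT.Analytic.RayL
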