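import Mathlib
import Fermat.Agent.CFT.Analytic.RayL
import Fermat.Agent.S14.Analytic.LSeries
import Fermat.Agent.S14.Analytic.PrimeSums

/-!
# The universal norm-index inequality (analytic form, arbitrary modulus)

Let `L/K` be an extension of number fields, `𝔪 ≠ ⊥` an ideal of `𝓞 K`, and
`φ : coprimeSubmonoid K 𝔪 →* A` a surjective homomorphism onto a finite abelian group which is
trivial on the principal ideals `(α)` with `α ≡ 1 mod 𝔪` totally positive and on every prime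
of `K` (prime to `𝔪`) having a prime of `L` of prime absolute norm above it.  Then
`Nat.card A ≤ [L : K]`.

This is the classical "second inequality by analysis": `[I^𝔪 : P_𝔪 N(I_L^𝔪)] ≤ [L : K]`.
-/

namespace Fermat.Agent.CFT.Analytic.NormIndex

open NumberField IsDedekindDomain Fermat.Agent.S14.ClassZeta Fermat.Agent.CFT.Analytic.RayZeta
  Fermat.Agent.CFT.Analytic.RayClass Fermat.Agent.CFT.Analytic.RayL
  Fermat.Agent.S14.Analytic

open scoped nonZeroDivisors Classical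

noncomputable section

variable {K : Type*} [Field K] [NumberField K]

/-! ## The completely multiplicative function of a character of the ideals prime to `𝔪` -/

lemma mul_mem_coprimeSubmonoid_iff {𝔪 I J : Ideal (𝓞 K)} :
    I * J ∈ coprimeSubmonoid K 𝔪 ↔ I ∈ coprimeSubmonoid K 𝔪 ∧ J ∈ coprimeSubmonoid K 𝔪 := by
  constructor
  · rintro ⟨h0, hc⟩
    refine ⟨⟨fun h => h0 (by rw [h]; exact Ideal.bot_mul _), hc.of_mul_left_left⟩,
      ⟨fun h => h0 (by rw [h]; exact Ideal.mul_bot _), hc.of_mul_left_right⟩⟩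
  · rintro ⟨hI, hJ⟩
    exact (coprimeSubmonoid K 𝔪).mul_mem hI hJ

/-- `I ↦ χ(I) N(I)^(-s)` on the ideals prime to `𝔪`, extended by zero. -/
def rayFun {𝔪 : Ideal (𝓞 K)} (χ : coprimeSubmonoid K 𝔪 →* ℂ) (s : ℝ) : Ideal (𝓞 K) →*₀ ℂ where
  toFun I := if h : I ∈ coprimeSubmonoid K 𝔪 then
    χ ⟨I, h⟩ * (((Ideal.absNorm I : ℝ) ^ (-s) : ℝ) : ℂ) else 0
  map_zero' := by
    have h : (0 : Ideal (𝓞 K)) ∉ coprimeSubmonoid K 𝔪 := fun h => h.1 rfl
    rw [dif_neg h]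
  map_one' := by
    have h : (1 : Ideal (𝓞 K)) ∈ coprimeSubmonoid K 𝔪 := (coprimeSubmonoid K 𝔪).one_mem
    rw [dif_pos h]
    have : (⟨1, h⟩ : coprimeSubmonoid K 𝔪) = 1 := rfl
    rw [this, map_one]
    simp
  map_mul' I J := by
    by_cases hI : I ∈ coprimeSubmonoid K 𝔪
    · by_cases hJ : J ∈ coprimeSubmonoid K 𝔪
      · have hIJ : I * J ∈ coprimeSubmonoid K 𝔪 := (coprimeSubmonoid K 𝔪).mul_mem hI hJ
        rw [dif_pos hI, dif_pos hJ, dif_pos hIJ]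
        have : (⟨I * J, hIJ⟩ : coprimeSubmonoid K 𝔪) = ⟨I, hI⟩ * ⟨J, hJ⟩ := rfl
        rw [this, map_mul, map_mul, Nat.cast_mul,
          Real.mul_rpow (Nat.cast_nonneg _) (Nat.cast_nonneg _)]
        push_cast
        ring
      · have hIJ : I * J ∉ coprimeSubmonoid K 𝔪 := fun h =>
          hJ (mul_mem_coprimeSubmonoid_iff.mp h).2
        rw [dif_neg hJ, dif_neg hIJ, mul_zero]
    · have hIJ : I * J ∉ coprimeSubmonoid K 𝔪 := fun h =>
        hI (mul_mem_coprimeSubmonoid_iff.mp h).1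
      rw [dif_neg hI, dif_neg hIJ, zero_mul]

lemma rayFun_of_mem {𝔪 : Ideal (𝓞 K)} (χ : coprimeSubmonoid K 𝔪 →* ℂ) (s : ℝ)
    {I : Ideal (𝓞 K)} (h : I ∈ coprimeSubmonoid K 𝔪) :
    rayFun χ s I = χ ⟨I, h⟩ * (((Ideal.absNorm I : ℝ) ^ (-s) : ℝ) : ℂ) := by
  show (if h : I ∈ coprimeSubmonoid K 𝔪 then _ else _) = _
  rw [dif_pos h]

lemma rayFun_of_not_mem {𝔪 : Ideal (𝓞 K)} (χ : coprimeSubmonoid K 𝔪 →* ℂ) (s : ℝ)
    {I : Ideal (𝓞 K)} (h : I ∉ coprimeSubmonoid K 𝔪) : rayFun χ s I = 0 := by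
  show (if h : I ∈ coprimeSubmonoid K 𝔪 then _ else _) = _
  rw [dif_neg h]

lemma norm_rayFun_le {𝔪 : Ideal (𝓞 K)} (χ : coprimeSubmonoid K 𝔪 →* ℂ)
    (hnorm : ∀ I, ‖χ I‖ ≤ 1) (s : ℝ) (I : Ideal (𝓞 K)) :
    ‖rayFun χ s I‖ ≤ PrimeSums.term K s I := by
  have h0 : 0 ≤ PrimeSums.term K s I := PrimeSums.term_nonneg K s I
  by_cases h : I ∈ coprimeSubmonoid K 𝔪
  · rw [rayFun_of_mem χ s h, norm_mul, Complex.norm_real,
      Real.norm_of_nonneg (Real.rpow_nonneg (Nat.cast_nonneg _) _)]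
    calc ‖χ ⟨I, h⟩‖ * (Ideal.absNorm I : ℝ) ^ (-s) ≤ 1 * (Ideal.absNorm I : ℝ) ^ (-s) := by
          gcongr
          exact hnorm _
      _ = PrimeSums.term K s I := one_mul _
  · rw [rayFun_of_not_mem χ s h, norm_zero]
    exact h0

lemma summable_norm_rayFun {𝔪 : Ideal (𝓞 K)} (χ : coprimeSubmonoid K 𝔪 →* ℂ)
    (hnorm : ∀ I, ‖χ I‖ ≤ 1) {s : ℝ} (hs : 1 < s) :
    Summable fun I : Ideal (𝓞 K) => ‖rayFun χ s I‖ :=
  Summable.of_nonneg_of_le (fun _ => norm_nonneg _) (norm_rayFun_le χ hnorm s)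
    (PrimeSums.summable_term K hs)

lemma tsum_rayFun {𝔪 : Ideal (𝓞 K)} (χ : coprimeSubmonoid K 𝔪 →* ℂ) (s : ℝ) :
    ∑' I : Ideal (𝓞 K), rayFun χ s I =
      ∑' I : coprimeSubmonoid K 𝔪,
        χ I * (((Ideal.absNorm (I.1 : Ideal (𝓞 K)) : ℝ) ^ (-s) : ℝ) : ℂ) := by
  have hsupp : Function.support (rayFun χ s) ⊆
      ((coprimeSubmonoid K 𝔪 : Submonoid (Ideal (𝓞 K))) : Set (Ideal (𝓞 K))) := by
    intro I hI
    by_contra h
    exact hI (rayFun_of_not_mem χ s h)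
  rw [← tsum_subtype_eq_of_support_subset hsupp]
  exact tsum_congr fun I => rayFun_of_mem χ s I.2

lemma norm_rayFun_prime_le_half {𝔪 : Ideal (𝓞 K)} (χ : coprimeSubmonoid K 𝔪 →* ℂ)
    (hnorm : ∀ I, ‖χ I‖ ≤ 1) {s : ℝ} (hs : 1 < s) (v : HeightOneSpectrum (𝓞 K)) :
    ‖rayFun χ s v.asIdeal‖ ≤ 1 / 2 :=
  (norm_rayFun_le χ hnorm s v.asIdeal).trans (PrimeSums.pterm_le_half K v hs.le)

/-- Euler product lower bound for `rayFun`. -/
lemma re_prime_sum_le {𝔪 : Ideal (𝓞 K)} (χ : coprimeSubmonoid K 𝔪 →* ℂ)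
    (hnorm : ∀ I, ‖χ I‖ ≤ 1) {s : ℝ} (hs : 1 < s) :
    0 < ‖∑' I : Ideal (𝓞 K), rayFun χ s I‖ ∧
    (∑' v : HeightOneSpectrum (𝓞 K), rayFun χ s v.asIdeal).re ≤
      Real.log ‖∑' I : Ideal (𝓞 K), rayFun χ s I‖ +
        ∑' v : HeightOneSpectrum (𝓞 K), PrimeSums.term K 2 v.asIdeal := by
  have h := LSeries.exp_le_norm_tsum (rayFun χ s) (summable_norm_rayFun χ hnorm hs)
    (norm_rayFun_prime_le_half χ hnorm hs)
  have hpos : 0 < ‖∑' I : Ideal (𝓞 K), rayFun χ s I‖ := lt_of_lt_of_le (Real.exp_pos _) h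
  refine ⟨hpos, ?_⟩
  have h2 := (Real.le_log_iff_exp_le hpos).mpr h
  have hsq : ∀ v : HeightOneSpectrum (𝓞 K),
      ‖rayFun χ s v.asIdeal‖ ^ 2 ≤ PrimeSums.term K 2 v.asIdeal := fun v =>
    (pow_le_pow_left₀ (norm_nonneg _) (norm_rayFun_le χ hnorm s v.asIdeal) 2).trans
      (PrimeSums.pterm_sq_le K v hs.le)
  have hs2' : Summable fun v : HeightOneSpectrum (𝓞 K) => PrimeSums.term K 2 v.asIdeal :=
    PrimeSums.summable_primes K (by norm_num)
  have hs2 : Summable fun v : HeightOneSpectrum (𝓞 K) => ‖rayFun χ s v.asIdeal‖ ^ 2 :=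
    Summable.of_nonneg_of_le (fun _ => sq_nonneg _) hsq hs2'
  have hle := hs2.tsum_le_tsum hsq hs2'
  linarith


/-- For any character of norm `≤ 1`, the prime sum is at most `log (1/(s-1)) + C`. -/
lemma re_prime_sum_le_log (K : Type*) [Field K] [NumberField K] :
    ∃ C : ℝ, ∀ {𝔪 : Ideal (𝓞 K)} (χ : coprimeSubmonoid K 𝔪 →* ℂ), (∀ I, ‖χ I‖ ≤ 1) →
      ∀ s : ℝ, 1 < s → s ≤ 2 →
      (∑' v : HeightOneSpectrum (𝓞 K), rayFun χ s v.asIdeal).re ≤
        Real.log (1 / (s - 1)) + C := by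
  obtain ⟨m, M, hm, hb⟩ := PrimeSums.sub_one_mul_Z_bound K
  refine ⟨Real.log M + ∑' v : HeightOneSpectrum (𝓞 K), PrimeSums.term K 2 v.asIdeal,
    fun {𝔪} χ hnorm s hs1 hs2 => ?_⟩
  obtain ⟨hpos, hle⟩ := re_prime_sum_le χ hnorm hs1
  obtain ⟨hb1, hb2⟩ := hb s hs1 hs2
  have hs0 : 0 < s - 1 := by linarith
  have hM : 0 < M := lt_of_lt_of_le hm (hb1.trans hb2)
  have hZ : ‖∑' I : Ideal (𝓞 K), rayFun χ s I‖ ≤ PrimeSums.Z K s := by
    refine (norm_tsum_le_tsum_norm (summable_norm_rayFun χ hnorm hs1)).trans ?_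
    exact (summable_norm_rayFun χ hnorm hs1).tsum_le_tsum (norm_rayFun_le χ hnorm s)
      (PrimeSums.summable_term K hs1)
  have hZ2 : PrimeSums.Z K s ≤ M / (s - 1) := by
    rw [le_div_iff₀ hs0]
    linarith
  have hlog : Real.log ‖∑' I : Ideal (𝓞 K), rayFun χ s I‖ ≤ Real.log (M / (s - 1)) :=
    Real.log_le_log hpos (hZ.trans hZ2)
  have hlog2 : Real.log (M / (s - 1)) = Real.log M + Real.log (1 / (s - 1)) := by
    rw [Real.log_div hM.ne' hs0.ne', one_div, Real.log_inv]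
    ring
  linarith

/-- For a nontrivial ray class character, the prime sum is bounded above. -/
lemma re_prime_sum_le_const {𝔪 : Ideal (𝓞 K)} (h𝔪 : 𝔪 ≠ ⊥) (χ : coprimeSubmonoid K 𝔪 →* ℂ)
    (hnorm : ∀ I, ‖χ I‖ ≤ 1)
    (hray : ∀ (α : 𝓞 K) (hα : RayOne K 𝔪 α),
      χ ⟨Ideal.span {α}, span_mem_coprimeSubmonoid K hα⟩ = 1)
    (hne : ∃ I, χ I ≠ 1) :
    ∃ C : ℝ, ∀ s : ℝ, 1 < s → s ≤ 2 →
      (∑' v : HeightOneSpectrum (𝓞 K), rayFun χ s v.asIdeal).re ≤ C := by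
  obtain ⟨B, hB⟩ := norm_rayL_le K h𝔪 χ hnorm hray hne
  refine ⟨Real.log B + ∑' v : HeightOneSpectrum (𝓞 K), PrimeSums.term K 2 v.asIdeal,
    fun s hs1 hs2 => ?_⟩
  obtain ⟨hpos, hle⟩ := re_prime_sum_le χ hnorm hs1
  have hB' := hB s hs1 hs2
  rw [← tsum_rayFun] at hB'
  have hlog := Real.log_le_log hpos hB'
  linarith

/-! ## Characters of a finite abelian group -/

section Characters

variable {A : Type*} [CommGroup A] [Finite A]

lemma norm_char (ψ : A →* ℂˣ) (a : A) : ‖((ψ a : ℂˣ) : ℂ)‖ = 1 := by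
  have h : ((ψ a : ℂˣ) : ℂ) ^ (Nat.card A) = 1 := by
    rw [← Units.val_pow_eq_pow_val, ← map_pow, pow_card_eq_one', map_one, Units.val_one]
  exact Complex.norm_eq_one_of_pow_eq_one h (Nat.card_pos.ne')

lemma finite_char (A : Type*) [CommGroup A] [Finite A] : Finite (A →* ℂˣ) := by
  obtain ⟨e⟩ := CommGroup.monoidHom_mulEquiv_of_hasEnoughRootsOfUnity A ℂ
  exact Finite.of_equiv A e.symm.toEquiv

lemma sum_char_eq [Fintype (A →* ℂˣ)] (a : A) :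
    ∑ ψ : A →* ℂˣ, ((ψ a : ℂˣ) : ℂ) = if a = 1 then (Nat.card A : ℂ) else 0 := by
  by_cases ha : a = 1
  · subst ha
    rw [if_pos rfl]
    simp only [map_one, Units.val_one, Finset.sum_const, Finset.card_univ, nsmul_eq_mul, mul_one]
    rw [← CommGroup.card_monoidHom_of_hasEnoughRootsOfUnity A ℂ, Nat.card_eq_fintype_card]
  · rw [if_neg ha]
    obtain ⟨ψ₀, hψ₀⟩ := CommGroup.exists_apply_ne_one_of_hasEnoughRootsOfUnity A ℂ ha
    have key : ∑ ψ : A →* ℂˣ, ((ψ₀ a : ℂˣ) : ℂ) * ((ψ a : ℂˣ) : ℂ) =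
        ∑ ψ : A →* ℂˣ, ((ψ a : ℂˣ) : ℂ) :=
      Fintype.sum_equiv (Equiv.mulLeft ψ₀) _ _ (fun ψ => by
        simp [MonoidHom.mul_apply])
    rw [← Finset.mul_sum] at key
    have hne : ((ψ₀ a : ℂˣ) : ℂ) - 1 ≠ 0 := by
      intro h
      apply hψ₀
      ext
      rw [Units.val_one]
      linear_combination h
    have h0 : (((ψ₀ a : ℂˣ) : ℂ) - 1) * ∑ ψ : A →* ℂˣ, ((ψ a : ℂˣ) : ℂ) = 0 := by
      linear_combination key
    exact (mul_eq_zero.mp h0).resolve_left hne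

/-- The character of the ideals prime to `𝔪` attached to a character of the quotient. -/
def chiOf {𝔪 : Ideal (𝓞 K)} (φ : coprimeSubmonoid K 𝔪 →* A) (ψ : A →* ℂˣ) :
    coprimeSubmonoid K 𝔪 →* ℂ :=
  (Units.coeHom ℂ).comp (ψ.comp φ)

lemma chiOf_apply {𝔪 : Ideal (𝓞 K)} (φ : coprimeSubmonoid K 𝔪 →* A) (ψ : A →* ℂˣ)
    (I : coprimeSubmonoid K 𝔪) : chiOf φ ψ I = ((ψ (φ I) : ℂˣ) : ℂ) := rfl

variable (K) in
/-- **Upper bound**: the primes in the kernel of `φ` have "density" at most `1 / |A|`. -/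
theorem upper_bound {𝔪 : Ideal (𝓞 K)} (h𝔪 : 𝔪 ≠ ⊥) (φ : coprimeSubmonoid K 𝔪 →* A)
    (hsurj : Function.Surjective φ)
    (hray : ∀ (α : 𝓞 K) (hα : RayOne K 𝔪 α),
      φ ⟨Ideal.span {α}, span_mem_coprimeSubmonoid K hα⟩ = 1) :
    ∃ C : ℝ, ∀ s : ℝ, 1 < s → s ≤ 2 → ∀ T : Finset (HeightOneSpectrum (𝓞 K)),
      (∀ v ∈ T, ∃ h : v.asIdeal ∈ coprimeSubmonoid K 𝔪, φ ⟨v.asIdeal, h⟩ = 1) →
      (Nat.card A : ℝ) * ∑ v ∈ T, PrimeSums.term K s v.asIdeal ≤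
        Real.log (1 / (s - 1)) + C := by
  have : Finite (A →* ℂˣ) := finite_char A
  let _ : Fintype (A →* ℂˣ) := Fintype.ofFinite _
  obtain ⟨C0, hC0⟩ := re_prime_sum_le_log K
  have hnorm : ∀ (ψ : A →* ℂˣ) (I : coprimeSubmonoid K 𝔪), ‖chiOf φ ψ I‖ ≤ 1 := fun ψ I =>
    (norm_char ψ (φ I)).le
  have hconst : ∀ ψ : A →* ℂˣ, ψ ≠ 1 → ∃ C : ℝ, ∀ s : ℝ, 1 < s → s ≤ 2 →
      (∑' v : HeightOneSpectrum (𝓞 K), rayFun (chiOf φ ψ) s v.asIdeal).re ≤ C := by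
    intro ψ hψ
    refine re_prime_sum_le_const h𝔪 (chiOf φ ψ) (hnorm ψ) ?_ ?_
    · intro α hα
      rw [chiOf_apply, hray α hα, map_one, Units.val_one]
    · by_contra hcon
      simp only [not_exists, not_not] at hcon
      apply hψ
      ext a
      obtain ⟨I, rfl⟩ := hsurj a
      have := hcon I
      rw [chiOf_apply] at this
      rw [this, MonoidHom.one_apply, Units.val_one]
  choose! Cψ hCψ using hconst
  refine ⟨C0 + ∑ ψ : A →* ℂˣ, |Cψ ψ|, fun s hs1 hs2 T hT => ?_⟩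
  set g : (A →* ℂˣ) → HeightOneSpectrum (𝓞 K) → ℝ :=
    fun ψ v => (rayFun (chiOf φ ψ) s v.asIdeal).re with hg_def
  have hinj : Function.Injective (fun v : HeightOneSpectrum (𝓞 K) => v.asIdeal) :=
    fun v w h => HeightOneSpectrum.ext h
  have hsumC : ∀ ψ : A →* ℂˣ,
      Summable fun v : HeightOneSpectrum (𝓞 K) => rayFun (chiOf φ ψ) s v.asIdeal := fun ψ =>
    ((summable_norm_rayFun (chiOf φ ψ) (hnorm ψ) hs1).comp_injective hinj).of_norm
  have hg : ∀ ψ : A →* ℂˣ, Summable (g ψ) := fun ψ => Complex.reCLM.summable (hsumC ψ)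
  have hre : ∀ ψ : A →* ℂˣ,
      (∑' v : HeightOneSpectrum (𝓞 K), rayFun (chiOf φ ψ) s v.asIdeal).re = ∑' v, g ψ v :=
    fun ψ => Complex.re_tsum (hsumC ψ)
  -- pointwise orthogonality
  have hpt : ∀ (v : HeightOneSpectrum (𝓞 K)) (h : v.asIdeal ∈ coprimeSubmonoid K 𝔪),
      ∑ ψ : A →* ℂˣ, g ψ v =
        (if φ ⟨v.asIdeal, h⟩ = 1 then (Nat.card A : ℝ) else 0) *
          PrimeSums.term K s v.asIdeal := by
    intro v h
    have h1 : ∀ ψ : A →* ℂˣ, g ψ v =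
        ((ψ (φ ⟨v.asIdeal, h⟩) : ℂˣ) : ℂ).re * PrimeSums.term K s v.asIdeal := by
      intro ψ
      simp only [hg_def]
      rw [rayFun_of_mem _ s h, chiOf_apply, Complex.re_mul_ofReal]
      rfl
    rw [Finset.sum_congr rfl (fun ψ _ => h1 ψ), ← Finset.sum_mul, ← Complex.re_sum,
      sum_char_eq]
    congr 1
    split_ifs <;> simp
  have hnonneg : ∀ v : HeightOneSpectrum (𝓞 K), 0 ≤ ∑ ψ : A →* ℂˣ, g ψ v := by
    intro v
    by_cases h : v.asIdeal ∈ coprimeSubmonoid K 𝔪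
    · rw [hpt v h]
      refine mul_nonneg ?_ (PrimeSums.term_nonneg K s _)
      split_ifs
      · exact Nat.cast_nonneg _
      · exact le_rfl
    · refine Finset.sum_nonneg fun ψ _ => ?_
      simp only [hg_def]
      rw [rayFun_of_not_mem _ s h]
      simp
  have hT' : (Nat.card A : ℝ) * ∑ v ∈ T, PrimeSums.term K s v.asIdeal =
      ∑ v ∈ T, ∑ ψ : A →* ℂˣ, g ψ v := by
    rw [Finset.mul_sum]
    refine Finset.sum_congr rfl fun v hv => ?_
    obtain ⟨h, hφ⟩ := hT v hv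
    rw [hpt v h, if_pos hφ]
  have hsumG : Summable fun v : HeightOneSpectrum (𝓞 K) => ∑ ψ : A →* ℂˣ, g ψ v :=
    summable_sum fun ψ _ => hg ψ
  have h2 : ∑ v ∈ T, ∑ ψ : A →* ℂˣ, g ψ v ≤ ∑' v, ∑ ψ : A →* ℂˣ, g ψ v :=
    hsumG.sum_le_tsum T fun v _ => hnonneg v
  have h3 : ∑' v, ∑ ψ : A →* ℂˣ, g ψ v = ∑ ψ : A →* ℂˣ, ∑' v, g ψ v :=
    Summable.tsum_finsetSum fun ψ _ => hg ψ
  have h4 : ∑ ψ : A →* ℂˣ, ∑' v, g ψ v ≤
      ∑ ψ : A →* ℂˣ, ((if ψ = 1 then Real.log (1 / (s - 1)) + C0 else 0) + |Cψ ψ|) := by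
    refine Finset.sum_le_sum fun ψ _ => ?_
    rw [← hre ψ]
    by_cases hψ : ψ = 1
    · rw [if_pos hψ]
      have := hC0 (chiOf φ ψ) (hnorm ψ) s hs1 hs2
      have h0 := abs_nonneg (Cψ ψ)
      linarith
    · rw [if_neg hψ]
      have := hCψ ψ hψ s hs1 hs2
      have h0 := le_abs_self (Cψ ψ)
      linarith
  rw [Finset.sum_add_distrib, Finset.sum_ite_eq' Finset.univ (1 : A →* ℂˣ),
    if_pos (Finset.mem_univ _)] at h4
  rw [hT']
  linarith

end Characters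


/-! ## The lower bound from the primes of `L` of prime norm -/

section Lower

variable (K) (L : Type*) [Field L] [NumberField L] [Algebra K L]

/-- At most `[L : K]` primes of `L` of the same norm as `v` lie above `v`. -/
lemma card_fiber_le (v : HeightOneSpectrum (𝓞 K)) (S : Finset (HeightOneSpectrum (𝓞 L)))
    (hS : ∀ w ∈ S, w.asIdeal.comap (algebraMap (𝓞 K) (𝓞 L)) = v.asIdeal ∧
      Ideal.absNorm w.asIdeal = Ideal.absNorm v.asIdeal) :
    S.card ≤ Module.finrank K L := by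
  have hdvd : ∏ w ∈ S, w.asIdeal ∣ v.asIdeal.map (algebraMap (𝓞 K) (𝓞 L)) := by
    have h := Finset.prod_primes_dvd (s := S.image (fun w => w.asIdeal))
      (v.asIdeal.map (algebraMap (𝓞 K) (𝓞 L))) ?_ ?_
    · rwa [Finset.prod_image (fun v _ w _ h => HeightOneSpectrum.ext h)] at h
    · intro I hI
      obtain ⟨w, -, rfl⟩ := Finset.mem_image.mp hI
      exact w.prime
    · intro I hI
      obtain ⟨w, hw, rfl⟩ := Finset.mem_image.mp hI
      exact Ideal.dvd_iff_le.mpr (Ideal.map_le_iff_le_comap.mpr (hS w hw).1.ge)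
  have hN := Ideal.absNorm_dvd_absNorm_of_le (Ideal.le_of_dvd hdvd)
  rw [Ideal.absNorm_algebraMap, map_prod, ← IsFractionRing.finrank_eq (𝓞 K) K (𝓞 L) L] at hN
  have hprod : ∏ w ∈ S, Ideal.absNorm w.asIdeal = Ideal.absNorm v.asIdeal ^ S.card := by
    rw [Finset.prod_congr rfl (fun w hw => (hS w hw).2), Finset.prod_const]
  rw [hprod] at hN
  have h2 := PrimeSums.two_le_absNorm K v
  exact (Nat.pow_dvd_pow_iff_le_right (by omega)).mp hN

/-- A prime of `L` of prime absolute norm has the same norm as the prime of `K` below it. -/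
lemma absNorm_under_eq_of_prime (w : HeightOneSpectrum (𝓞 L))
    (hw : (Ideal.absNorm w.asIdeal).Prime) :
    Ideal.absNorm (w.under (𝓞 K)).asIdeal = Ideal.absNorm w.asIdeal := by
  set p := (w.under (𝓞 K)).asIdeal with hp_def
  have hlo : w.asIdeal.LiesOver p := ⟨rfl⟩
  have hp : p.IsPrime := (w.under (𝓞 K)).isPrime
  have hp0 : p ≠ ⊥ := (w.under (𝓞 K)).ne_bot
  have h := Ideal.absNorm_eq_pow_inertiaDeg'_of_liesOver w.asIdeal p hp hp0
  have hw' : (Ideal.absNorm p ^ p.inertiaDeg' w.asIdeal).Prime := h ▸ hw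
  have hf := ((Nat.Prime.pow_eq_iff hw').mp rfl).2
  rw [h, hf, pow_one]

lemma finite_bad (𝔪 : Ideal (𝓞 K)) (h𝔪 : 𝔪 ≠ ⊥) :
    {w : HeightOneSpectrum (𝓞 L) | w.asIdeal ∣ 𝔪.map (algebraMap (𝓞 K) (𝓞 L))}.Finite := by
  apply Ideal.finite_factors
  rw [Ne, Ideal.zero_eq_bot, Ideal.map_eq_bot_iff_of_injective
    (FaithfulSMul.algebraMap_injective (𝓞 K) (𝓞 L))]
  exact h𝔪

lemma under_mem_coprimeSubmonoid (𝔪 : Ideal (𝓞 K)) (w : HeightOneSpectrum (𝓞 L))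
    (hw : ¬ w.asIdeal ∣ 𝔪.map (algebraMap (𝓞 K) (𝓞 L))) :
    (w.under (𝓞 K)).asIdeal ∈ coprimeSubmonoid K 𝔪 := by
  refine ⟨(w.under (𝓞 K)).ne_bot, ?_⟩
  rw [Ideal.isCoprime_iff_sup_eq]
  by_contra hne
  have hmax := (w.under (𝓞 K)).isMaximal
  have heq : (w.under (𝓞 K)).asIdeal = (w.under (𝓞 K)).asIdeal ⊔ 𝔪 :=
    hmax.eq_of_le hne le_sup_left
  have hle : 𝔪 ≤ (w.under (𝓞 K)).asIdeal := heq ▸ le_sup_right
  exact hw (Ideal.dvd_iff_le.mpr (Ideal.map_le_iff_le_comap.mpr hle))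

/-- **Lower bound**: the primes of `K` prime to `𝔪` having a prime of `L` of prime norm above
them have "density" at least `1 / [L : K]`. -/
theorem lower_bound (𝔪 : Ideal (𝓞 K)) (h𝔪 : 𝔪 ≠ ⊥) :
    ∃ C : ℝ, ∀ s : ℝ, 1 < s → s ≤ 2 → ∃ T : Finset (HeightOneSpectrum (𝓞 K)),
      (∀ v ∈ T, v.asIdeal ∈ coprimeSubmonoid K 𝔪 ∧ ∃ w : HeightOneSpectrum (𝓞 L),
        (Ideal.absNorm w.asIdeal).Prime ∧
          w.asIdeal.comap (algebraMap (𝓞 K) (𝓞 L)) = v.asIdeal) ∧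
      Real.log (1 / (s - 1)) - C ≤
        (Module.finrank K L : ℝ) * ∑ v ∈ T, PrimeSums.term K s v.asIdeal := by
  obtain ⟨C1, hC1⟩ := PrimeSums.prime_sum_bound L
  obtain ⟨C2, hC2⟩ := PrimeSums.nonprime_norm_bound L
  have hbad := finite_bad K L 𝔪 h𝔪
  refine ⟨C1 + 1 + C2 + hbad.toFinset.card, fun s hs1 hs2 => ?_⟩
  set f : HeightOneSpectrum (𝓞 L) → ℝ := fun w => PrimeSums.term L s w.asIdeal with hf
  have hsum : Summable f := PrimeSums.summable_primes L hs1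
  obtain ⟨T0, hT0⟩ : ∃ T0 : Finset (HeightOneSpectrum (𝓞 L)),
      ∑' w, f w - 1 < ∑ w ∈ T0, f w :=
    (hsum.hasSum.eventually (lt_mem_nhds (by linarith))).exists
  have hC1' : -C1 ≤ ∑' w, f w - Real.log (1 / (s - 1)) := (abs_le.mp (hC1 s hs1 hs2)).1
  -- split `T0`
  set Tp := T0.filter (fun w => (Ideal.absNorm w.asIdeal).Prime) with hTp
  set Tn := T0.filter (fun w => ¬ (Ideal.absNorm w.asIdeal).Prime) with hTn
  set Tb := Tp.filter (fun w => w.asIdeal ∣ 𝔪.map (algebraMap (𝓞 K) (𝓞 L))) with hTb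
  set Tg := Tp.filter (fun w => ¬ w.asIdeal ∣ 𝔪.map (algebraMap (𝓞 K) (𝓞 L))) with hTg
  have hsp1 : ∑ w ∈ Tp, f w + ∑ w ∈ Tn, f w = ∑ w ∈ T0, f w :=
    Finset.sum_filter_add_sum_filter_not T0 _ f
  have hsp2 : ∑ w ∈ Tb, f w + ∑ w ∈ Tg, f w = ∑ w ∈ Tp, f w :=
    Finset.sum_filter_add_sum_filter_not Tp _ f
  have hn : ∑ w ∈ Tn, f w ≤ C2 := hC2 s hs1 Tn (fun w hw => (Finset.mem_filter.mp hw).2)
  have hb : ∑ w ∈ Tb, f w ≤ hbad.toFinset.card := by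
    calc ∑ w ∈ Tb, f w ≤ ∑ w ∈ Tb, (1 : ℝ) := Finset.sum_le_sum fun w _ => by
          have := PrimeSums.pterm_le_half L w hs1.le
          simp only [hf]
          linarith
      _ = Tb.card := by simp
      _ ≤ hbad.toFinset.card := by
          have : Tb ⊆ hbad.toFinset := fun w hw => by
            rw [Set.Finite.mem_toFinset]
            exact (Finset.mem_filter.mp hw).2
          exact_mod_cast Finset.card_le_card this
  -- the good primes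
  set u : HeightOneSpectrum (𝓞 L) → HeightOneSpectrum (𝓞 K) := fun w => w.under (𝓞 K) with hu
  have hgood : ∀ w ∈ Tg, (Ideal.absNorm w.asIdeal).Prime ∧
      ¬ w.asIdeal ∣ 𝔪.map (algebraMap (𝓞 K) (𝓞 L)) := fun w hw =>
    ⟨(Finset.mem_filter.mp (Finset.mem_filter.mp hw).1).2, (Finset.mem_filter.mp hw).2⟩
  have hg : ∑ w ∈ Tg, f w ≤
      (Module.finrank K L : ℝ) * ∑ v ∈ Tg.image u, PrimeSums.term K s v.asIdeal := by
    rw [← Finset.sum_fiberwise_of_maps_to (g := u) (s := Tg) (t := Tg.image u)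
      (fun w hw => Finset.mem_image_of_mem u hw) f, Finset.mul_sum]
    refine Finset.sum_le_sum fun v _ => ?_
    have hterm : ∀ w ∈ Tg.filter (fun w => u w = v), f w = PrimeSums.term K s v.asIdeal := by
      intro w hw
      obtain ⟨hwg, hwv⟩ := Finset.mem_filter.mp hw
      simp only [hf, PrimeSums.term]
      rw [← hwv, hu, absNorm_under_eq_of_prime K L w (hgood w hwg).1]
    rw [Finset.sum_congr rfl hterm, Finset.sum_const, nsmul_eq_mul]
    refine mul_le_mul_of_nonneg_right ?_ (PrimeSums.term_nonneg K s _)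
    have hcard := card_fiber_le K L v (Tg.filter (fun w => u w = v)) (fun w hw => by
      obtain ⟨hwg, hwv⟩ := Finset.mem_filter.mp hw
      refine ⟨?_, ?_⟩
      · rw [← hwv]; rfl
      · rw [← hwv, hu, absNorm_under_eq_of_prime K L w (hgood w hwg).1])
    exact_mod_cast hcard
  refine ⟨Tg.image u, ?_, ?_⟩
  · intro v hv
    obtain ⟨w, hw, rfl⟩ := Finset.mem_image.mp hv
    exact ⟨under_mem_coprimeSubmonoid K L 𝔪 w (hgood w hw).2, w, (hgood w hw).1, rfl⟩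
  · linarith

end Lower

/-! ## The inequality -/

section Main

variable (K) (L : Type*) [Field L] [NumberField L] [Algebra K L]
variable {A : Type*} [CommGroup A] [Finite A]

/-- **Universal norm-index inequality** (the "second inequality" of class field theory in its
analytic, ideal-theoretic form, for an arbitrary modulus `𝔪 ≠ ⊥` and an arbitrary finite
extension `L/K` of number fields).

If `φ` is a surjective homomorphism from the monoid of ideals of `𝓞 K` prime to `𝔪` onto a finite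
abelian group `A` which kills the ray modulo `𝔪` (principal ideals `(α)` with `α ≡ 1 mod 𝔪`,
`α` totally positive) and every prime `v ∤ 𝔪` of `K` below a prime of `L` of prime absolute norm,
then `|A| ≤ [L : K]`. -/
theorem card_le_finrank_of_prime_norm {𝔪 : Ideal (𝓞 K)} (h𝔪 : 𝔪 ≠ ⊥)
    (φ : coprimeSubmonoid K 𝔪 →* A) (hsurj : Function.Surjective φ)
    (hray : ∀ (α : 𝓞 K) (hα : RayOne K 𝔪 α),
      φ ⟨Ideal.span {α}, span_mem_coprimeSubmonoid K hα⟩ = 1)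
    (hsplit : ∀ (v : HeightOneSpectrum (𝓞 K)) (h : v.asIdeal ∈ coprimeSubmonoid K 𝔪)
      (w : HeightOneSpectrum (𝓞 L)), (Ideal.absNorm w.asIdeal).Prime →
      w.asIdeal.comap (algebraMap (𝓞 K) (𝓞 L)) = v.asIdeal → φ ⟨v.asIdeal, h⟩ = 1) :
    Nat.card A ≤ Module.finrank K L := by
  obtain ⟨C1, hU⟩ := upper_bound K h𝔪 φ hsurj hray
  obtain ⟨C2, hL⟩ := lower_bound K L 𝔪 h𝔪
  by_contra hlt
  rw [not_le] at hlt
  set n := Module.finrank K L with hn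
  set h := Nat.card A with hh
  set x : ℝ := |(n : ℝ) * C1 + h * C2| + 1 with hx
  set s : ℝ := 1 + Real.exp (-x) with hs
  have hx0 : 0 ≤ x := by positivity
  have hs1 : 1 < s := by
    have := Real.exp_pos (-x)
    linarith
  have hs2 : s ≤ 2 := by
    have : Real.exp (-x) ≤ 1 := Real.exp_le_one_iff.mpr (by linarith)
    linarith
  have hlog : Real.log (1 / (s - 1)) = x := by
    have : s - 1 = Real.exp (-x) := by rw [hs]; ring
    rw [this, one_div, ← Real.exp_neg, neg_neg, Real.log_exp]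
  obtain ⟨T, hT, hTL⟩ := hL s hs1 hs2
  have hTU := hU s hs1 hs2 T (fun v hv => ⟨(hT v hv).1, by
    obtain ⟨w, hw1, hw2⟩ := (hT v hv).2
    exact hsplit v _ w hw1 hw2⟩)
  rw [hlog] at hTL hTU
  have hn0 : (0 : ℝ) ≤ n := Nat.cast_nonneg _
  have hh0 : (0 : ℝ) ≤ h := Nat.cast_nonneg _
  have h1 : (h : ℝ) * (x - C2) ≤ n * (x + C1) := by
    calc (h : ℝ) * (x - C2) ≤ h * (n * ∑ v ∈ T, PrimeSums.term K s v.asIdeal) := by gcongr
      _ = n * (h * ∑ v ∈ T, PrimeSums.term K s v.asIdeal) := by ring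
      _ ≤ n * (x + C1) := by gcongr
  have h2 : (n : ℝ) + 1 ≤ h := by exact_mod_cast hlt
  have hx1 : (n : ℝ) * C1 + h * C2 < x := lt_of_le_of_lt (le_abs_self _) (by rw [hx]; linarith)
  nlinarith [mul_nonneg (sub_nonneg.mpr h2) hx0]


/-- A prime of `L` of prime absolute norm has relative norm the prime of `K` below it. -/
lemma relNorm_eq_comap_of_prime (w : HeightOneSpectrum (𝓞 L))
    (hw : (Ideal.absNorm w.asIdeal).Prime) :
    Ideal.relNorm (𝓞 K) w.asIdeal = w.asIdeal.comap (algebraMap (𝓞 K) (𝓞 L)) := by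
  set p := (w.under (𝓞 K)).asIdeal with hp_def
  have hlo : w.asIdeal.LiesOver p := ⟨rfl⟩
  have hp : p.IsPrime := (w.under (𝓞 K)).isPrime
  obtain ⟨k, hk⟩ := Ideal.exists_relNorm_eq_pow_of_isPrime w.asIdeal p
  have h1 := Ideal.absNorm_relNorm (𝓞 K) (𝓞 L) w.asIdeal
  rw [hk, map_pow, ← absNorm_under_eq_of_prime K L w hw] at h1
  have h2 := PrimeSums.two_le_absNorm K (w.under (𝓞 K))
  have hk1 : k = 1 := by
    have h3 : Ideal.absNorm p ^ k = Ideal.absNorm p ^ 1 := by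
      rw [pow_one]
      exact h1
    exact Nat.pow_right_injective h2 h3
  rw [hk, hk1, pow_one]
  rfl

/-- **Universal norm-index inequality**, hypothesis on primes with a prime of the same absolute
norm (i.e. of residue degree one) above them. -/
theorem card_le_finrank {𝔪 : Ideal (𝓞 K)} (h𝔪 : 𝔪 ≠ ⊥)
    (φ : coprimeSubmonoid K 𝔪 →* A) (hsurj : Function.Surjective φ)
    (hray : ∀ (α : 𝓞 K) (hα : RayOne K 𝔪 α),
      φ ⟨Ideal.span {α}, span_mem_coprimeSubmonoid K hα⟩ = 1)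
    (hsplit : ∀ (𝔭 : coprimeSubmonoid K 𝔪) (𝔓 : Ideal (𝓞 L)), 𝔓.IsPrime → 𝔓 ≠ ⊥ →
      𝔓.comap (algebraMap (𝓞 K) (𝓞 L)) = 𝔭.1 → Ideal.absNorm 𝔓 = Ideal.absNorm 𝔭.1 →
      φ 𝔭 = 1) :
    Nat.card A ≤ Module.finrank K L := by
  refine card_le_finrank_of_prime_norm K L h𝔪 φ hsurj hray fun v h w hw hwv => ?_
  refine hsplit ⟨v.asIdeal, h⟩ w.asIdeal w.isPrime w.ne_bot hwv ?_
  rw [← absNorm_under_eq_of_prime K L w hw]
  exact congrArg _ hwv

/-- **Universal norm-index inequality**, classical form: if `φ` kills the ray modulo `𝔪` and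
the relative norms of the ideals of `L` (whose norm is prime to `𝔪`), then `|A| ≤ [L : K]`;
that is, `[I^𝔪 : P_𝔪 · N(I_L^𝔪)] ≤ [L : K]`. -/
theorem card_le_finrank_of_relNorm {𝔪 : Ideal (𝓞 K)} (h𝔪 : 𝔪 ≠ ⊥)
    (φ : coprimeSubmonoid K 𝔪 →* A) (hsurj : Function.Surjective φ)
    (hray : ∀ (α : 𝓞 K) (hα : RayOne K 𝔪 α),
      φ ⟨Ideal.span {α}, span_mem_coprimeSubmonoid K hα⟩ = 1)
    (hnorm : ∀ (𝔓 : Ideal (𝓞 L)) (_ : 𝔓.IsPrime)
      (h : Ideal.relNorm (𝓞 K) 𝔓 ∈ coprimeSubmonoid K 𝔪),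
      φ ⟨Ideal.relNorm (𝓞 K) 𝔓, h⟩ = 1) :
    Nat.card A ≤ Module.finrank K L := by
  refine card_le_finrank_of_prime_norm K L h𝔪 φ hsurj hray fun v h w hw hwv => ?_
  have h1 : Ideal.relNorm (𝓞 K) w.asIdeal = v.asIdeal :=
    (relNorm_eq_comap_of_prime K L w hw).trans hwv
  have h2 : Ideal.relNorm (𝓞 K) w.asIdeal ∈ coprimeSubmonoid K 𝔪 := h1 ▸ h
  have h3 := hnorm w.asIdeal w.isPrime h2
  have h4 : (⟨Ideal.relNorm (𝓞 K) w.asIdeal, h2⟩ : coprimeSubmonoid K 𝔪) = ⟨v.asIdeal, h⟩ :=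
    Subtype.ext h1
  rw [← h4]
  exact h3

end Main

end

end Fermat.Agent.CFT.Analytic.NormIndex
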