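import Mathlib
import Fermat.Agent.CFT.Analytic.NormIndex

/-!
# The universal norm-index inequality for functions on ideals

Function-on-ideals forms of `NormIndex.card_le_finrank_of_prime_norm`, with the hypothesis on
split primes phrased with `Ideal.inertiaDeg`.  `normIndexIneq` is, verbatim, the unfolded
statement `Fermat.Agent.CFT.Global.HasseNorm.NormIndexIneq K L`.
-/

namespace Fermat.Agent.CFT.Analytic.NormIndex

open NumberField IsDedekindDomain Fermat.Agent.CFT.Analytic.RayZeta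
  Fermat.Agent.CFT.Analytic.RayClass

universe u v

variable (K : Type u) (L : Type v) [Field K] [NumberField K] [Field L] [NumberField L]
  [Algebra K L]

/-- A prime of `L` of prime absolute norm has inertia degree one over `K`. -/
lemma inertiaDeg_eq_one_of_prime (w : HeightOneSpectrum (𝓞 L))
    (hw : (Ideal.absNorm w.asIdeal).Prime) : w.asIdeal.inertiaDeg (𝓞 K) = 1 := by
  set p := (w.under (𝓞 K)).asIdeal with hp_def
  have hlo : w.asIdeal.LiesOver p := ⟨rfl⟩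
  have hp : p.IsPrime := (w.under (𝓞 K)).isPrime
  have hp0 : p ≠ ⊥ := (w.under (𝓞 K)).ne_bot
  have hpm : p.IsMaximal := (w.under (𝓞 K)).isMaximal
  have hwm : w.asIdeal.IsMaximal := w.isMaximal
  have h := Ideal.absNorm_eq_pow_inertiaDeg'_of_liesOver w.asIdeal p hp hp0
  have hw' : (Ideal.absNorm p ^ p.inertiaDeg' w.asIdeal).Prime := h ▸ hw
  have hf := ((Nat.Prime.pow_eq_iff hw').mp rfl).2
  rw [← Ideal.inertiaDeg'_eq_inertiaDeg p w.asIdeal]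
  exact hf

/-- **Universal norm-index inequality**, for a function on ideals (weak hypotheses:
multiplicativity only on ideals prime to `𝔪`, triviality only on the totally positive ray, and
only on primes below a prime of `L` of inertia degree one and prime absolute norm). -/
theorem card_le_finrank_of_fun {𝔪 : Ideal (𝓞 K)} (h𝔪 : 𝔪 ≠ ⊥) {A : Type*} [CommGroup A]
    [Finite A] (φ : Ideal (𝓞 K) → A)
    (hmul : ∀ I J : Ideal (𝓞 K), I ≠ ⊥ → J ≠ ⊥ → IsCoprime I 𝔪 → IsCoprime J 𝔪 →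
      φ (I * J) = φ I * φ J)
    (hsurj : ∀ x : A, ∃ I : Ideal (𝓞 K), I ≠ ⊥ ∧ IsCoprime I 𝔪 ∧ φ I = x)
    (hray : ∀ a : 𝓞 K, RayOne K 𝔪 a → φ (Ideal.span {a}) = 1)
    (hsplit : ∀ 𝔭 : Ideal (𝓞 K), 𝔭.IsPrime → 𝔭 ≠ ⊥ → IsCoprime 𝔭 𝔪 →
      (∃ 𝔓 : Ideal (𝓞 L), 𝔓.IsPrime ∧ 𝔓.LiesOver 𝔭 ∧ 𝔓.inertiaDeg (𝓞 K) = 1 ∧
        (Ideal.absNorm 𝔓).Prime) → φ 𝔭 = 1) :
    Nat.card A ≤ Module.finrank K L := by
  have h1 : φ 1 = 1 := by
    have h := hmul 1 1 one_ne_zero one_ne_zero isCoprime_one_left isCoprime_one_left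
    rw [mul_one] at h
    exact (mul_eq_left.mp h.symm)
  let φ' : coprimeSubmonoid K 𝔪 →* A :=
    { toFun := fun I => φ I.1
      map_one' := h1
      map_mul' := fun I J => hmul I.1 J.1 I.2.1 J.2.1 I.2.2 J.2.2 }
  refine card_le_finrank_of_prime_norm K L h𝔪 φ' ?_ ?_ ?_
  · intro x
    obtain ⟨I, hI0, hIc, rfl⟩ := hsurj x
    exact ⟨⟨I, hI0, hIc⟩, rfl⟩
  · intro α hα
    exact hray α hα
  · intro v h w hw hwv
    exact hsplit v.asIdeal v.isPrime v.ne_bot h.2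
      ⟨w.asIdeal, w.isPrime, ⟨hwv.symm⟩, inertiaDeg_eq_one_of_prime K L w hw, hw⟩

/-- **Universal norm-index inequality**: verbatim the unfolded statement of
`Fermat.Agent.CFT.Global.HasseNorm.NormIndexIneq K L`. -/
theorem normIndexIneq :
    ∀ 𝔪 : Ideal (𝓞 K), 𝔪 ≠ ⊥ → ∀ (A : Type u) [CommGroup A] [Finite A] (φ : Ideal (𝓞 K) → A),
      (∀ I J : Ideal (𝓞 K), I ≠ ⊥ → J ≠ ⊥ → φ (I * J) = φ I * φ J) →
      (∀ x : A, ∃ I : Ideal (𝓞 K), I ≠ ⊥ ∧ IsCoprime I 𝔪 ∧ φ I = x) →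
      (∀ a : 𝓞 K, a ≠ 0 → a - 1 ∈ 𝔪 → φ (Ideal.span {a}) = 1) →
      (∀ 𝔭 : Ideal (𝓞 K), 𝔭.IsPrime → 𝔭 ≠ ⊥ → IsCoprime 𝔭 𝔪 →
        (∃ 𝔓 : Ideal (𝓞 L), 𝔓.IsPrime ∧ 𝔓.LiesOver 𝔭 ∧ 𝔓.inertiaDeg (𝓞 K) = 1) → φ 𝔭 = 1) →
      Nat.card A ≤ Module.finrank K L :=
  fun _ h𝔪 _ _ _ φ hmul hsurj hray hsplit =>
    card_le_finrank_of_fun K L h𝔪 φ (fun I J hI hJ _ _ => hmul I J hI hJ) hsurj
      (fun a ha => hray a ha.1 ha.2.1)
      (fun 𝔭 h1 h2 h3 ⟨𝔓, hP1, hP2, hP3, _⟩ => hsplit 𝔭 h1 h2 h3 ⟨𝔓, hP1, hP2, hP3⟩)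

end Fermat.Agent.CFT.Analytic.NormIndex
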