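/-
S48 / brick G (Chebotarev), ray-class prerequisite of the cyclotomic step (G2) — helper127.

For a number field `E` and `m ≠ 0`, the NORM RESIDUE homomorphism `I ↦ N(I) mod m` on the ideals
of `𝓞 E` prime to `m` is a character of the narrow ray class group modulo `m∞`:

* `norm_pos_of_totallyPositive`, `norm_int_pos_of_totallyPositive` : a nonzero element which is
  positive at every real embedding has positive norm;
* `intCast_norm_eq_one` : `N(α) ≡ 1 mod m` for `α ≡ 1 mod m 𝓞_E`;
* `absNorm_coprime` (NR1) : ideals prime to `m 𝓞_E` have norm prime to `m`;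
* `normRes` (NR2) : the homomorphism to `(ZMod m)ˣ`, `normRes_coe`;
* `normRes_rayOne` (NR3) : it is trivial on `(α)`, `α ≡ 1 mod* m∞` — literally the `hray`
  hypothesis of `NormIndex.upper_bound`, `RayL.norm_rayL_le`, `NormIndex.re_prime_sum_le_const`;
* `normRes_coe_of_absNorm_eq`, `normRes_eq_one_iff` (NR4) : values at primes;
* `normGroup E m` : the subgroup `H' ≤ (ℤ/m)ˣ` of norms, `normResR` (surjective onto `H'`);
* `upper_bound_normRes`, `re_prime_sum_le_const_normRes` : the two plug-in forms.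
-/
import Mathlib
import Fermat.Agent.CFT.Analytic.RayClass
import Fermat.Agent.CFT.Analytic.NormIndex

set_option autoImplicit false

namespace Fermat.Agent.CFT.Analytic.NormResidue

open NumberField IsDedekindDomain Fermat.Agent.CFT.Analytic.RayZeta
  Fermat.Agent.CFT.Analytic.RayClass Fermat.Agent.CFT.Analytic.NormIndex
  Fermat.Agent.S14.Analytic

variable (E : Type*) [Field E] [NumberField E]

/-! ## Positivity of the norm of a totally positive element -/

open NumberField.InfinitePlace in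
/-- The product of the conjugates of a nonzero element which is positive at every real embedding
is a positive real number. -/
theorem prod_embeddings_pos {x : E} (hx : x ≠ 0) (h : ∀ σ : E →+* ℝ, 0 < σ x) :
    ∃ r : ℝ, 0 < r ∧ ∏ φ : E →+* ℂ, φ x = (r : ℂ) := by
  classical
  rw [← Finset.prod_fiberwise Finset.univ InfinitePlace.mk (fun φ => φ x)]
  refine Finset.prod_induction _ (fun z : ℂ => ∃ r : ℝ, 0 < r ∧ z = (r : ℂ)) ?_ ?_ ?_
  · rintro _ _ ⟨r, hr, rfl⟩ ⟨r', hr', rfl⟩
    exact ⟨r * r', mul_pos hr hr', by push_cast; rfl⟩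
  · exact ⟨1, one_pos, by simp⟩
  · intro w _
    by_cases hw : w.IsReal
    · have hfil : (Finset.univ.filter fun φ : E →+* ℂ => InfinitePlace.mk φ = w) =
          {w.embedding} := by
        ext φ
        simp only [Finset.mem_filter, Finset.mem_univ, true_and, Finset.mem_singleton]
        constructor
        · intro hφ
          have h1 : InfinitePlace.mk φ = InfinitePlace.mk w.embedding := by
            rw [hφ, mk_embedding]
          rcases mk_eq_iff.mp h1 with h2 | h2
          · exact h2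
          · have h3 : ComplexEmbedding.conjugate w.embedding = w.embedding :=
              ComplexEmbedding.isReal_iff.mp (isReal_iff.mp hw)
            rw [← h3, ← h2, ComplexEmbedding.conjugate, star_star]
        · rintro rfl
          exact mk_embedding w
      rw [hfil, Finset.prod_singleton]
      exact ⟨(embedding_of_isReal hw) x, h _, (embedding_of_isReal_apply hw x).symm⟩
    · have hc : ComplexEmbedding.conjugate w.embedding ≠ w.embedding := fun h3 =>
        hw (isReal_iff.mpr (ComplexEmbedding.isReal_iff.mpr h3))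
      have hfil : (Finset.univ.filter fun φ : E →+* ℂ => InfinitePlace.mk φ = w) =
          {w.embedding, ComplexEmbedding.conjugate w.embedding} := by
        ext φ
        simp only [Finset.mem_filter, Finset.mem_univ, true_and, Finset.mem_insert,
          Finset.mem_singleton]
        constructor
        · intro hφ
          have h1 : InfinitePlace.mk w.embedding = InfinitePlace.mk φ := by
            rw [hφ, mk_embedding]
          rcases mk_eq_iff.mp h1 with h2 | h2
          · exact Or.inl h2.symm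
          · exact Or.inr h2.symm
        · rintro (rfl | rfl)
          · exact mk_embedding w
          · rw [mk_conjugate_eq, mk_embedding]
      rw [hfil, Finset.prod_pair hc.symm]
      refine ⟨Complex.normSq (w.embedding x), Complex.normSq_pos.mpr ?_, ?_⟩
      · exact (map_ne_zero _).mpr hx
      · rw [ComplexEmbedding.conjugate_coe_eq, Complex.mul_conj]

/-- A nonzero element which is positive at every real embedding has positive norm. -/
theorem norm_pos_of_totallyPositive {x : E} (hx : x ≠ 0) (h : ∀ σ : E →+* ℝ, 0 < σ x) :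
    0 < Algebra.norm ℚ x := by
  obtain ⟨r, hr, hprod⟩ := prod_embeddings_pos E hx h
  have h1 := Algebra.norm_eq_prod_embeddings ℚ ℂ x
  rw [← Fintype.prod_equiv (RingHom.equivRatAlgHom E ℂ) (fun φ : E →+* ℂ => φ x)
    (fun σ : E →ₐ[ℚ] ℂ => σ x) (fun φ => rfl), hprod] at h1
  have h2 : ((Algebra.norm ℚ x : ℚ) : ℝ) = r := by
    have h3 : (((Algebra.norm ℚ x : ℚ) : ℝ) : ℂ) = (r : ℂ) := by
      rw [← h1]; simp
    exact_mod_cast h3
  have : (0 : ℝ) < ((Algebra.norm ℚ x : ℚ) : ℝ) := h2 ▸ hr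
  exact_mod_cast this


variable {E}

/-- The norm of an integer which is positive at every real embedding is positive. -/
theorem norm_int_pos_of_totallyPositive {α : 𝓞 E} (hα : α ≠ 0)
    (h : ∀ σ : E →+* ℝ, 0 < σ (α : E)) : 0 < Algebra.norm ℤ α := by
  have h1 : 0 < Algebra.norm ℚ (α : E) :=
    norm_pos_of_totallyPositive E (by simpa using hα) h
  have h2 : ((Algebra.norm ℤ α : ℤ) : ℚ) = Algebra.norm ℚ (α : E) := Algebra.coe_norm_int α
  have h3 : (0 : ℚ) < ((Algebra.norm ℤ α : ℤ) : ℚ) := h2 ▸ h1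
  exact_mod_cast h3

/-! ## The norm is `≡ 1` modulo `m` on `1 + m 𝓞` -/

/-- `N(α) ≡ 1 mod m` for `α ≡ 1 mod m 𝓞_E`. -/
theorem intCast_norm_eq_one {m : ℕ} {α : 𝓞 E} (h : α - 1 ∈ Ideal.span {(m : 𝓞 E)}) :
    ((Algebra.norm ℤ α : ℤ) : ZMod m) = 1 := by
  classical
  obtain ⟨β, hβ⟩ := Ideal.mem_span_singleton'.mp h
  have hα : α = 1 + m • β := by
    rw [nsmul_eq_mul, mul_comm, hβ]; ring
  let b := RingOfIntegers.basis E
  rw [Algebra.norm_eq_matrix_det b α]
  show Int.castRingHom (ZMod m) (Matrix.det (Algebra.leftMulMatrix b α)) = 1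
  rw [RingHom.map_det]
  have hz : (Int.castRingHom (ZMod m)).mapMatrix (Algebra.leftMulMatrix b α) = 1 := by
    rw [hα, map_add, map_one, map_nsmul, map_add, map_one, map_nsmul]
    have : m • (Int.castRingHom (ZMod m)).mapMatrix (Algebra.leftMulMatrix b β) = 0 := by
      ext i j
      simp [Matrix.smul_apply]
    rw [this, add_zero]
  rw [hz, Matrix.det_one]

/-! ## (NR1) Ideals prime to `m` have norm prime to `m` -/

/-- **(NR1)** An ideal prime to `m 𝓞_E` has absolute norm prime to `m`. -/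
theorem absNorm_coprime {m : ℕ} {I : Ideal (𝓞 E)}
    (hI : I ∈ coprimeSubmonoid E (Ideal.span {(m : 𝓞 E)})) : (Ideal.absNorm I).Coprime m := by
  classical
  obtain ⟨hI0, hcop⟩ := hI
  rw [Ideal.isCoprime_iff_exists] at hcop
  obtain ⟨i, hi, j, hj, hij⟩ := hcop
  obtain ⟨c, rfl⟩ := Ideal.mem_span_singleton'.mp hj
  by_contra hnot
  obtain ⟨p, hp, hpN, hpm⟩ := Nat.Prime.not_coprime_iff_dvd.mp hnot
  have hfin : Finite (𝓞 E ⧸ I) := Ideal.finiteQuotientOfFreeOfNeBot I hI0
  have hcard : Nat.card (𝓞 E ⧸ I) = Ideal.absNorm I := by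
    rw [Ideal.absNorm_apply, Submodule.cardQuot_apply]
  have := Fintype.ofFinite (𝓞 E ⧸ I)
  have : Fact p.Prime := ⟨hp⟩
  obtain ⟨x, hx⟩ := exists_prime_addOrderOf_dvd_card (G := 𝓞 E ⧸ I) p
    (by rw [← Nat.card_eq_fintype_card, hcard]; exact hpN)
  have hx0 : x ≠ 0 := by
    rintro rfl
    rw [addOrderOf_zero] at hx
    exact hp.one_lt.ne hx
  have hmx : (m : 𝓞 E ⧸ I) * x = 0 := by
    obtain ⟨k, rfl⟩ := hpm
    have h1 : p • x = 0 := hx ▸ addOrderOf_nsmul_eq_zero x
    rw [← nsmul_eq_mul, mul_comm, mul_nsmul', h1, nsmul_zero]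
  apply hx0
  have h1 : (Ideal.Quotient.mk I c) * (m : 𝓞 E ⧸ I) = 1 := by
    have h2 : Ideal.Quotient.mk I (i + c * (m : 𝓞 E)) = 1 := by rw [hij, map_one]
    rw [map_add, Ideal.Quotient.eq_zero_iff_mem.mpr hi, zero_add, map_mul, map_natCast] at h2
    exact h2
  calc x = (Ideal.Quotient.mk I c * (m : 𝓞 E ⧸ I)) * x := by rw [h1, one_mul]
    _ = 0 := by rw [mul_assoc, hmx, mul_zero]

/-! ## (NR2) The norm residue homomorphism -/

/-- **(NR2)** The norm residue homomorphism `I ↦ N(I) mod m` on the ideals prime to `m`. -/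
noncomputable def normRes (m : ℕ) :
    coprimeSubmonoid E (Ideal.span {(m : 𝓞 E)}) →* (ZMod m)ˣ where
  toFun I := ZMod.unitOfCoprime (Ideal.absNorm (I : Ideal (𝓞 E))) (absNorm_coprime I.2)
  map_one' := by
    ext
    rw [ZMod.coe_unitOfCoprime]
    simp
  map_mul' I J := by
    ext
    rw [Units.val_mul, ZMod.coe_unitOfCoprime, ZMod.coe_unitOfCoprime, ZMod.coe_unitOfCoprime]
    simp

theorem normRes_coe (m : ℕ) (I : coprimeSubmonoid E (Ideal.span {(m : 𝓞 E)})) :
    ((normRes (E := E) m I : (ZMod m)ˣ) : ZMod m) =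
      ((Ideal.absNorm (I : Ideal (𝓞 E)) : ℕ) : ZMod m) :=
  ZMod.coe_unitOfCoprime (Ideal.absNorm (I : Ideal (𝓞 E))) (absNorm_coprime I.2)

/-! ## (NR3) The norm residue homomorphism is a ray class character -/

/-- **(NR3)** `normRes` is trivial on the principal ideals `(α)`, `α ≡ 1 mod* m∞`: it is a
character of the (narrow) ray class group modulo `m`. -/
theorem normRes_rayOne (m : ℕ) (α : 𝓞 E) (hα : RayOne E (Ideal.span {(m : 𝓞 E)}) α) :
    normRes (E := E) m ⟨Ideal.span {α}, span_mem_coprimeSubmonoid E hα⟩ = 1 := by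
  ext
  rw [normRes_coe, Units.val_one]
  show ((Ideal.absNorm (Ideal.span {α}) : ℕ) : ZMod m) = 1
  rw [Ideal.absNorm_span_singleton]
  have hpos := norm_int_pos_of_totallyPositive hα.1 hα.2.2
  have h1 : (((Algebra.norm ℤ α).natAbs : ℕ) : ℤ) = Algebra.norm ℤ α :=
    Int.natAbs_of_nonneg hpos.le
  have h2 : (((Algebra.norm ℤ α).natAbs : ℕ) : ZMod m) = ((Algebra.norm ℤ α : ℤ) : ZMod m) := by
    rw [← h1]; simp
  rw [h2, intCast_norm_eq_one hα.2.1]


/-! ## (NR4) Values at primes -/

/-- **(NR4)** At a prime of absolute norm `n` (e.g. a degree-one prime over `ℓ = n`) the norm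
residue is `n mod m`. -/
theorem normRes_coe_of_absNorm_eq (m : ℕ) (v : HeightOneSpectrum (𝓞 E))
    (hv : v.asIdeal ∈ coprimeSubmonoid E (Ideal.span {(m : 𝓞 E)})) {n : ℕ}
    (hn : Ideal.absNorm v.asIdeal = n) :
    ((normRes (E := E) m ⟨v.asIdeal, hv⟩ : (ZMod m)ˣ) : ZMod m) = (n : ZMod m) := by
  rw [normRes_coe, hn]

/-- `normRes v = 1` iff `N(v) ≡ 1 mod m`. -/
theorem normRes_eq_one_iff (m : ℕ) (I : coprimeSubmonoid E (Ideal.span {(m : 𝓞 E)})) :
    normRes (E := E) m I = 1 ↔ ((Ideal.absNorm (I : Ideal (𝓞 E)) : ℕ) : ZMod m) = 1 := by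
  rw [← normRes_coe]
  constructor
  · intro h; rw [h, Units.val_one]
  · intro h; exact Units.ext (by rw [h, Units.val_one])

theorem span_natCast_ne_bot {m : ℕ} (hm : m ≠ 0) : Ideal.span {(m : 𝓞 E)} ≠ ⊥ := by
  rw [Ne, Ideal.span_singleton_eq_bot]
  exact_mod_cast hm

/-! ## The norm group `H'` and the plug-in forms for `NormIndex` -/

/-- The subgroup `H' ≤ (ℤ/m)ˣ` of the norms of the ideals of `E` prime to `m`. -/
noncomputable def normGroup (E : Type*) [Field E] [NumberField E] (m : ℕ) [NeZero m] :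
    Subgroup (ZMod m)ˣ where
  carrier := Set.range (normRes (E := E) m)
  mul_mem' := by
    rintro _ _ ⟨I, rfl⟩ ⟨J, rfl⟩
    exact ⟨I * J, map_mul _ _ _⟩
  one_mem' := ⟨1, map_one _⟩
  inv_mem' := by
    rintro _ ⟨I, rfl⟩
    refine ⟨I ^ (orderOf (normRes (E := E) m I) - 1), ?_⟩
    rw [map_pow]
    refine (inv_eq_of_mul_eq_one_right ?_).symm
    rw [← pow_succ', Nat.sub_add_cancel (orderOf_pos _), pow_orderOf_eq_one]

theorem mem_normGroup {m : ℕ} [NeZero m] {a : (ZMod m)ˣ} :
    a ∈ normGroup E m ↔ ∃ I, normRes (E := E) m I = a := Iff.rfl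

/-- `normRes` with values in the norm group. -/
noncomputable def normResR (E : Type*) [Field E] [NumberField E] (m : ℕ) [NeZero m] :
    coprimeSubmonoid E (Ideal.span {(m : 𝓞 E)}) →* ↥(normGroup E m) where
  toFun I := ⟨normRes (E := E) m I, ⟨I, rfl⟩⟩
  map_one' := Subtype.ext (map_one _)
  map_mul' I J := Subtype.ext (map_mul _ I J)

theorem normResR_coe (m : ℕ) [NeZero m] (I : coprimeSubmonoid E (Ideal.span {(m : 𝓞 E)})) :
    ((normResR E m I : ↥(normGroup E m)) : (ZMod m)ˣ) = normRes (E := E) m I := rfl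

theorem normResR_surjective (m : ℕ) [NeZero m] : Function.Surjective (normResR E m) := by
  rintro ⟨_, I, rfl⟩
  exact ⟨I, rfl⟩

theorem normResR_rayOne (m : ℕ) [NeZero m] (α : 𝓞 E)
    (hα : RayOne E (Ideal.span {(m : 𝓞 E)}) α) :
    normResR E m ⟨Ideal.span {α}, span_mem_coprimeSubmonoid E hα⟩ = 1 :=
  Subtype.ext (normRes_rayOne m α hα)

/-- **Upper bound for the class `N ≡ 1`** (plug-in of `NormIndex.upper_bound`): the primes of
`E` with `N(v) ≡ 1 mod m` have "density" at most `1 / |H'|`. -/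
theorem upper_bound_normRes (E : Type*) [Field E] [NumberField E] (m : ℕ) [NeZero m] :
    ∃ C : ℝ, ∀ s : ℝ, 1 < s → s ≤ 2 → ∀ T : Finset (HeightOneSpectrum (𝓞 E)),
      (∀ v ∈ T, v.asIdeal ∈ coprimeSubmonoid E (Ideal.span {(m : 𝓞 E)}) ∧
        ((Ideal.absNorm v.asIdeal : ℕ) : ZMod m) = 1) →
      (Nat.card (normGroup E m) : ℝ) * ∑ v ∈ T, PrimeSums.term E s v.asIdeal ≤
        Real.log (1 / (s - 1)) + C := by
  obtain ⟨C, hC⟩ := upper_bound E (span_natCast_ne_bot (NeZero.ne m)) (normResR E m)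
    (normResR_surjective m) (normResR_rayOne m)
  refine ⟨C, fun s hs1 hs2 T hT => hC s hs1 hs2 T fun v hv => ?_⟩
  obtain ⟨h, h1⟩ := hT v hv
  exact ⟨h, Subtype.ext ((normRes_eq_one_iff m ⟨v.asIdeal, h⟩).mpr h1)⟩

/-- **The norm residue characters are ray class characters** (plug-in of
`NormIndex.re_prime_sum_le_const`): for a character `ψ` of `(ℤ/m)ˣ` which is nontrivial on the
norm group, the real part of `Σ_v ψ(N v) N(v)^(-s)` is bounded above on `(1, 2]`. -/
theorem re_prime_sum_le_const_normRes (E : Type*) [Field E] [NumberField E] (m : ℕ) [NeZero m]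
    (ψ : (ZMod m)ˣ →* ℂˣ) (hne : ∃ I, ψ (normRes (E := E) m I) ≠ 1) :
    ∃ C : ℝ, ∀ s : ℝ, 1 < s → s ≤ 2 →
      (∑' v : HeightOneSpectrum (𝓞 E),
        rayFun (chiOf (normRes (E := E) m) ψ) s v.asIdeal).re ≤ C := by
  refine re_prime_sum_le_const (span_natCast_ne_bot (NeZero.ne m)) _ (fun I => ?_) ?_ ?_
  · rw [chiOf_apply]
    exact (norm_char ψ _).le
  · intro α hα
    rw [chiOf_apply, normRes_rayOne m α hα, map_one, Units.val_one]
  · obtain ⟨I, hI⟩ := hne
    refine ⟨I, fun h => hI ?_⟩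
    rw [chiOf_apply] at h
    exact Units.ext h

end Fermat.Agent.CFT.Analytic.NormResidue
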