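/-
S48 / brick G (Chebotarev), dictionary between the norm residue character
(`CFT/Analytic/NormResidue`) and the indicator `ind` of `Lib/Chebotarev/PairDensity` — helper127.

* `mem_coprimeSubmonoid_iff_coprime` : a prime `v` of `E` is prime to `m 𝓞_E` iff `N(v)` is
  prime to `m`;
* `ind_normResR` : for EVERY prime `v` of `E`,
  `ind (normResR E m) a v = if (N(v) : ZMod m) = a then 1 else 0`;
* `pair_density_normRes` : `PairDensity.pair_density` at the norm residue character, in terms of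
  the classes of `N(v)` modulo `m`.
-/
import Mathlib
import Fermat.Agent.CFT.Analytic.NormResidue
import Fermat.Agent.Lib.Chebotarev.PairDensity

set_option autoImplicit false

namespace Fermat.Agent.CFT.Analytic.NormResidueInd

open NumberField IsDedekindDomain Fermat.Agent.CFT.Analytic.RayZeta
  Fermat.Agent.CFT.Analytic.RayClass Fermat.Agent.CFT.Analytic.NormIndex
  Fermat.Agent.CFT.Analytic.NormResidue Fermat.Agent.Lib.Chebotarev.PairDensity
  Fermat.Agent.S14.Analytic

variable {E : Type*} [Field E] [NumberField E]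

/-- A prime of `E` is prime to `m 𝓞_E` iff its absolute norm is prime to `m`. -/
theorem mem_coprimeSubmonoid_iff_coprime (m : ℕ) (v : HeightOneSpectrum (𝓞 E)) :
    v.asIdeal ∈ coprimeSubmonoid E (Ideal.span {(m : 𝓞 E)}) ↔
      (Ideal.absNorm v.asIdeal).Coprime m := by
  refine ⟨fun h => absNorm_coprime h, fun h => ⟨v.ne_bot, ?_⟩⟩
  rw [Ideal.isCoprime_iff_sup_eq]
  by_contra hne
  have hmax : v.asIdeal.IsMaximal := v.isMaximal
  have hle : Ideal.span {(m : 𝓞 E)} ≤ v.asIdeal := by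
    have h1 : v.asIdeal ⊔ Ideal.span {(m : 𝓞 E)} = v.asIdeal :=
      (hmax.eq_of_le hne le_sup_left).symm
    exact h1 ▸ le_sup_right
  have hm : (m : 𝓞 E) ∈ v.asIdeal := hle (Ideal.subset_span rfl)
  have hN : ((Ideal.absNorm v.asIdeal : ℕ) : 𝓞 E) ∈ v.asIdeal := Ideal.absNorm_mem _
  have h1 : (1 : 𝓞 E) ∈ v.asIdeal := by
    have hb := Nat.gcd_eq_gcd_ab (Ideal.absNorm v.asIdeal) m
    rw [Nat.coprime_iff_gcd_eq_one.mp h] at hb
    have hb' : (1 : 𝓞 E) = ((Ideal.absNorm v.asIdeal : ℕ) : 𝓞 E) *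
        ((Nat.gcdA (Ideal.absNorm v.asIdeal) m : ℤ) : 𝓞 E) +
        (m : 𝓞 E) * ((Nat.gcdB (Ideal.absNorm v.asIdeal) m : ℤ) : 𝓞 E) := by
      have := congrArg (fun z : ℤ => (z : 𝓞 E)) hb
      push_cast at this
      exact this
    rw [hb']
    exact v.asIdeal.add_mem (v.asIdeal.mul_mem_right _ hN) (v.asIdeal.mul_mem_right _ hm)
  exact hmax.ne_top ((Ideal.eq_top_iff_one _).mpr h1)

/-- The indicator of the class `a` of the norm residue character, for every prime `v`:
`[N(v) ≡ a mod m]`. -/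
theorem ind_normResR (m : ℕ) [NeZero m] (a : ↥(normGroup E m)) (v : HeightOneSpectrum (𝓞 E)) :
    ind (normResR E m) a v =
      if ((Ideal.absNorm v.asIdeal : ℕ) : ZMod m) = (((a : (ZMod m)ˣ)) : ZMod m) then 1 else 0 := by
  by_cases hv : v.asIdeal ∈ coprimeSubmonoid E (Ideal.span {(m : 𝓞 E)})
  · rw [ind_of_mem _ _ hv]
    have key : (normResR E m ⟨v.asIdeal, hv⟩ = a) ↔
        ((Ideal.absNorm v.asIdeal : ℕ) : ZMod m) = (((a : (ZMod m)ˣ)) : ZMod m) := by
      rw [← normRes_coe m ⟨v.asIdeal, hv⟩, ← normResR_coe]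
      constructor
      · intro h; rw [h]
      · intro h; exact Subtype.ext (Units.ext h)
    by_cases h : normResR E m ⟨v.asIdeal, hv⟩ = a
    · rw [if_pos h, if_pos (key.mp h)]
    · rw [if_neg h, if_neg (fun h' => h (key.mpr h'))]
  · rw [ind_of_not_mem _ _ hv, if_neg]
    intro h
    apply hv
    rw [mem_coprimeSubmonoid_iff_coprime]
    have hu : IsUnit ((Ideal.absNorm v.asIdeal : ℕ) : ZMod m) := h ▸ (a : (ZMod m)ˣ).isUnit
    exact (ZMod.isUnit_iff_coprime _ _).mp hu

/-- **Pair density for the classes of `N(v)` modulo `m`**: `PairDensity.pair_density` at the norm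
residue character.  If the primes with `N(v) ≡ 1 mod m` have lower density `≥ 1 / |H'|`
(`H' = normGroup E m`), then for every `a ∈ H'` the primes with `N(v) ≡ a` or `a⁻¹` (counted
twice if `a = a⁻¹`) have density `2 / |H'|`. -/
theorem pair_density_normRes (m : ℕ) [NeZero m]
    (hLB : ∃ C : ℝ, ∀ s : ℝ, 1 < s → s ≤ 2 →
      Real.log (1 / (s - 1)) / (Nat.card (normGroup E m) : ℝ) - C ≤
        ∑' v : HeightOneSpectrum (𝓞 E),
          (if ((Ideal.absNorm v.asIdeal : ℕ) : ZMod m) = 1 then (1 : ℝ) else 0) *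
            PrimeSums.term E s v.asIdeal)
    (a : ↥(normGroup E m)) :
    ∃ C : ℝ, ∀ s : ℝ, 1 < s → s ≤ 2 →
      |(∑' v : HeightOneSpectrum (𝓞 E),
          ((if ((Ideal.absNorm v.asIdeal : ℕ) : ZMod m) = (((a : (ZMod m)ˣ)) : ZMod m)
              then (1 : ℝ) else 0) +
            (if ((Ideal.absNorm v.asIdeal : ℕ) : ZMod m) = (((a⁻¹ : ↥(normGroup E m)) :
              (ZMod m)ˣ) : ZMod m) then (1 : ℝ) else 0)) * PrimeSums.term E s v.asIdeal) -
        2 / (Nat.card (normGroup E m) : ℝ) * Real.log (1 / (s - 1))| ≤ C := by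
  have hLB' : ∃ C : ℝ, ∀ s : ℝ, 1 < s → s ≤ 2 →
      Real.log (1 / (s - 1)) / (Nat.card (normGroup E m) : ℝ) - C ≤
        ∑' v : HeightOneSpectrum (𝓞 E), ind (normResR E m) 1 v * PrimeSums.term E s v.asIdeal := by
    obtain ⟨C, hC⟩ := hLB
    refine ⟨C, fun s hs1 hs2 => (hC s hs1 hs2).trans (le_of_eq ?_)⟩
    refine tsum_congr fun v => ?_
    rw [ind_normResR]
    simp
  obtain ⟨C, hC⟩ := pair_density (span_natCast_ne_bot (NeZero.ne m)) (normResR E m)
    (normResR_surjective m) (normResR_rayOne m) hLB' a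
  refine ⟨C, fun s hs1 hs2 => ?_⟩
  have h := hC s hs1 hs2
  have e : (∑' v : HeightOneSpectrum (𝓞 E),
      (ind (normResR E m) a v + ind (normResR E m) a⁻¹ v) * PrimeSums.term E s v.asIdeal) =
      ∑' v : HeightOneSpectrum (𝓞 E),
          ((if ((Ideal.absNorm v.asIdeal : ℕ) : ZMod m) = (((a : (ZMod m)ˣ)) : ZMod m)
              then (1 : ℝ) else 0) +
            (if ((Ideal.absNorm v.asIdeal : ℕ) : ZMod m) = (((a⁻¹ : ↥(normGroup E m)) :
              (ZMod m)ˣ) : ZMod m) then (1 : ℝ) else 0)) * PrimeSums.term E s v.asIdeal :=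
    tsum_congr fun v => by rw [ind_normResR, ind_normResR]
  rwa [e] at h

end Fermat.Agent.CFT.Analytic.NormResidueInd
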